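/-
GATE-J / J1-HAUPT, file 2: the analytic dictionary.

`ZExp M k s` : the integral power series `s ∈ ℤ⟦q⟧` is the `q`-expansion of a holomorphic modular
form of weight `k` on `Γ₀(M)`.  Closure under `+, -, *, ^`, integer multiples, dilation
`q ↦ q^M` of level-one forms; base cases `E₄`, `Δ`; and the Sturm bound: if the first
`⌊k [SL₂ℤ : Γ₀(M)] / 12⌋ + 1` coefficients of `s` vanish then `s = 0`.
-/
import Mathlib
import Fermat.Prelude.Thm_ModularForm_sturm_bound_Gamma0
import Fermat.Agent.S23.Unbundled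
import Fermat.Agent.S23.FormT
import Fermat.Agent.S20_helper27.Index
import Fermat.Agent.S16.LevelOneInt

set_option autoImplicit false

noncomputable section

namespace Fermat.Agent.GJ.Haupt

open UpperHalfPlane ModularForm PowerSeries
open Fermat.Agent.S23 Fermat.Agent.S16.L1h67
open scoped MatrixGroups ModularForm Manifold

/-- coefficientwise `ℤ → ℂ` -/
abbrev zc (s : PowerSeries ℤ) : PowerSeries ℂ := s.map (Int.castRingHom ℂ)

theorem zc_injective : Function.Injective zc :=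
  PowerSeries.map_injective _ (RingHom.injective_int (Int.castRingHom ℂ))

/-- `s` is the `q`-expansion of a modular form of weight `k` on `Γ₀(M)`. -/
def ZExp (M : ℕ) (k : ℤ) (s : PowerSeries ℤ) : Prop :=
  ∃ F : ℍ → ℂ, IsMF (G0 M) k F ∧ qExpansion 1 F = zc s

namespace ZExp

variable {M : ℕ} {k a b c : ℤ} {s t : PowerSeries ℤ}

theorem cast (h : a = b) (hs : ZExp M a s) : ZExp M b s := h ▸ hs

theorem congr (hs : ZExp M k s) (h : s = t) : ZExp M k t := h ▸ hs

theorem add (hs : ZExp M k s) (ht : ZExp M k t) : ZExp M k (s + t) := by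
  obtain ⟨F, hF, hFq⟩ := hs
  obtain ⟨G, hG, hGq⟩ := ht
  exact ⟨F + G, hF.add hG, by rw [qExp_add hF.nice hG.nice, hFq, hGq]; exact (map_add _ _ _).symm⟩

theorem sub (hs : ZExp M k s) (ht : ZExp M k t) : ZExp M k (s - t) := by
  obtain ⟨F, hF, hFq⟩ := hs
  obtain ⟨G, hG, hGq⟩ := ht
  exact ⟨F - G, hF.sub hG, by rw [qExp_sub hF.nice hG.nice, hFq, hGq]; exact (map_sub _ _ _).symm⟩

theorem mul (hs : ZExp M a s) (ht : ZExp M b t) (h : a + b = c) : ZExp M c (s * t) := by
  obtain ⟨F, hF, hFq⟩ := hs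
  obtain ⟨G, hG, hGq⟩ := ht
  exact ⟨F * G, hF.mul_cast hG h, by rw [qExp_mul hF.nice hG.nice, hFq, hGq]; exact (map_mul _ _ _).symm⟩

theorem pow (hs : ZExp M a s) (n : ℕ) (h : a * n = c) : ZExp M c (s ^ n) := by
  obtain ⟨F, hF, hFq⟩ := hs
  exact ⟨F ^ n, hF.pow_cast n h, by rw [qExp_pow hF.nice, hFq]; exact (map_pow _ _ _).symm⟩

theorem int_mul (m : ℤ) (hs : ZExp M k s) : ZExp M k ((m : PowerSeries ℤ) * s) := by
  obtain ⟨F, hF, hFq⟩ := hs
  refine ⟨(m : ℂ) • F, hF.smul _, ?_⟩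
  rw [qExp_smul _ hF.nice, hFq, show (m : PowerSeries ℤ) = C (m : ℤ) from (map_intCast (C (R := ℤ)) m).symm]
  ext n
  rw [coeff_smul, coeff_map, coeff_map, coeff_C_mul]
  simp

theorem ofNat_mul (m : ℕ) [m.AtLeastTwo] (hs : ZExp M k s) :
    ZExp M k ((OfNat.ofNat m : PowerSeries ℤ) * s) := by
  have h := hs.int_mul (OfNat.ofNat m)
  have h2 : ((OfNat.ofNat m : ℤ) : PowerSeries ℤ) = (OfNat.ofNat m : PowerSeries ℤ) := by
    simp
  rwa [h2] at h

/-- **Sturm bound.** -/
theorem eq_zero [NeZero M] (hs : ZExp M k s) {i : ℕ}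
    (hidx : (CongruenceSubgroup.Gamma0 M).index = i)
    (h0 : ∀ n ≤ (k * i).toNat / 12, coeff n s = 0) : s = 0 := by
  obtain ⟨F, ⟨F', rfl⟩, hFq⟩ := hs
  have hF0 : F' = 0 := by
    apply ModularForm.sturm_bound_Gamma0 M
    intro n hn
    rw [hidx] at hn
    rw [hFq, zc, coeff_map, h0 n hn]
    simp
  apply zc_injective
  rw [← hFq, hF0]
  simpa using qExp_zero

end ZExp

/-! ### base cases -/

theorem zexp_e4 (M : ℕ) : ZExp M 4 e4Z :=
  ⟨E₄, (ModularForm.isMF E₄).levelOne_to_G0, qExpansion_E4⟩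

theorem isMF_discriminant : IsMF 𝒮ℒ 12 ModularForm.discriminant :=
  (CuspForm.discriminant : CuspForm 𝒮ℒ 12).isCF.isMF

theorem zexp_delta (M : ℕ) : ZExp M 12 deltaZ :=
  ⟨ModularForm.discriminant, isMF_discriminant.levelOne_to_G0, qExpansion_discriminant⟩

/-! ### dilation -/

/-- `τ ↦ f (M τ)` -/
def dilF (M : ℕ) (f : ℍ → ℂ) : ℍ → ℂ := fun z => f (heckeDiagMatrix M • z)

theorem dilF_eq (M : ℕ) [NeZero M] (k : ℤ) (f : ℍ → ℂ) :
    dilF M f = ((M : ℂ) ^ (k - 1))⁻¹ • (f ∣[k] heckeDiagMatrix M) := by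
  have hM : M ≠ 0 := NeZero.ne M
  have hM' : (M : ℂ) ^ (k - 1) ≠ 0 := zpow_ne_zero _ (by exact_mod_cast hM)
  funext τ
  rw [Pi.smul_apply, slash_heckeDiagMatrix_apply k hM, smul_eq_mul, ← mul_assoc,
    inv_mul_cancel₀ hM', one_mul]
  rfl

theorem isMF_dilF (M : ℕ) [NeZero M] {k : ℤ} (f : ModularForm 𝒮ℒ k) :
    IsMF (G0 M) k (dilF M f) := by
  rw [dilF_eq M k]
  exact (FormT.isMF_slash_heckeDiag M f).smul _

open Function in
theorem qExpansion_dilF (M : ℕ) [NeZero M] {k : ℤ} (f : ModularForm 𝒮ℒ k) :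
    qExpansion 1 (dilF M f) = PowerSeries.expand M (NeZero.ne M) (qExpansion 1 f) := by
  have hM : M ≠ 0 := NeZero.ne M
  obtain ⟨F', hF'⟩ := isMF_dilF M f
  ext n
  rw [← hF', PowerSeries.coeff_expand]
  symm
  refine ModularFormClass.qExpansion_coeff_unique (f := F')
    (c := fun n => if M ∣ n then (qExpansion 1 (f : ℍ → ℂ)).coeff (n / M) else 0) one_pos
    (CongruenceSubgroup.one_mem_strictPeriods_Gamma0 M) (fun τ => ?_) n
  rw [hF']
  have h1 := ModularForm.hasSum_qExpansion (f := f) one_pos one_mem_strictPeriods_SL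
    (heckeDiagMatrix M • τ)
  have hq : Periodic.qParam 1 ((heckeDiagMatrix M • τ : ℍ) : ℂ) = Periodic.qParam 1 (τ : ℂ) ^ M := by
    rw [coe_heckeDiagMatrix_smul hM, Periodic.qParam, Periodic.qParam, ← Complex.exp_nat_mul]
    congr 1
    ring
  have hinj : Injective (fun m : ℕ => M * m) := fun a b h => Nat.eq_of_mul_eq_mul_left
    (Nat.pos_of_ne_zero hM) h
  rw [← hinj.hasSum_iff]
  · have hv : dilF M (⇑f) τ = f (heckeDiagMatrix M • τ) := rfl
    rw [hv]
    convert h1 using 1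
    funext m
    simp only [Function.comp_apply, dvd_mul_right, if_true, Nat.mul_div_cancel_left _
      (Nat.pos_of_ne_zero hM), smul_eq_mul, hq, pow_mul]
  · intro x hx
    have : ¬ M ∣ x := fun ⟨m, hm⟩ => hx ⟨m, hm.symm⟩
    simp [this]

theorem zexp_dil (M : ℕ) [NeZero M] {k : ℤ} (f : ModularForm 𝒮ℒ k) {s : PowerSeries ℤ}
    (hq : qExpansion 1 f = zc s) : ZExp M k (PowerSeries.expand M (NeZero.ne M) s) :=
  ⟨dilF M f, isMF_dilF M f, by rw [qExpansion_dilF, hq, zc, zc, PowerSeries.map_expand]⟩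

theorem zexp_e4_dil (M : ℕ) [NeZero M] : ZExp M 4 (PowerSeries.expand M (NeZero.ne M) e4Z) :=
  zexp_dil M E₄ qExpansion_E4

theorem zexp_delta_dil (M : ℕ) [NeZero M] :
    ZExp M 12 (PowerSeries.expand M (NeZero.ne M) deltaZ) := by
  obtain ⟨f, hf⟩ := isMF_discriminant
  refine zexp_dil M f ?_
  rw [hf]
  exact qExpansion_discriminant

/-! ### the indices -/

theorem index_Gamma0_two : (CongruenceSubgroup.Gamma0 2).index = 3 := by
  rw [Fermat.Agent.S20_helper27.index_Gamma0, ModularCurve.dedekindPsi, Nat.Prime.divisors Nat.prime_two,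
    Finset.filter_true_of_mem]
  · rfl
  · intro d hd
    simp only [Finset.mem_insert, Finset.mem_singleton] at hd
    rcases hd with rfl | rfl
    · exact squarefree_one
    · exact Nat.prime_two.squarefree

theorem index_Gamma0_three : (CongruenceSubgroup.Gamma0 3).index = 4 := by
  rw [Fermat.Agent.S20_helper27.index_Gamma0, ModularCurve.dedekindPsi, Nat.Prime.divisors Nat.prime_three,
    Finset.filter_true_of_mem]
  · rfl
  · intro d hd
    simp only [Finset.mem_insert, Finset.mem_singleton] at hd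
    rcases hd with rfl | rfl
    · exact squarefree_one
    · exact Nat.prime_three.squarefree

end Fermat.Agent.GJ.Haupt
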