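/-
GATE-J / J1-HAUPT, file 1: verified truncated arithmetic of integral power series.

`EqUpTo n f l` : the power series `f : ℤ⟦X⟧` has the coefficients listed in `l` in degrees `< n`.
Closure under `+, -, *, ^, c •, expand`, with COMPUTABLE list operations, so that concrete
coefficient identities reduce to `decide +kernel` on literal lists.  Mathlib only.
-/
import Mathlib

set_option autoImplicit false

namespace Fermat.Agent.GJ.Haupt

open PowerSeries

/-- `f` has the coefficients `l` in degrees `< n`. -/
def EqUpTo (n : ℕ) (f : PowerSeries ℤ) (l : List ℤ) : Prop :=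
  ∀ m < n, coeff m f = l.getD m 0

/-- coefficient `k` of the product of two coefficient lists -/
def mulCoeffL (a b : List ℤ) (k : ℕ) : ℤ :=
  ((List.range (k + 1)).map fun i => a.getD i 0 * b.getD (k - i) 0).sum

/-- product of two coefficient lists, truncated at degree `n` -/
def mulL (n : ℕ) (a b : List ℤ) : List ℤ := (List.range n).map (mulCoeffL a b)

/-- sum of two coefficient lists, truncated at degree `n` -/
def addL (n : ℕ) (a b : List ℤ) : List ℤ := (List.range n).map fun k => a.getD k 0 + b.getD k 0

/-- difference of two coefficient lists, truncated at degree `n` -/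
def subL (n : ℕ) (a b : List ℤ) : List ℤ := (List.range n).map fun k => a.getD k 0 - b.getD k 0

/-- scalar multiple of a coefficient list -/
def smulL (c : ℤ) (a : List ℤ) : List ℤ := a.map fun x => c * x

/-- the substitution `X ↦ X ^ e` on coefficient lists, truncated at degree `n` -/
def expandL (n e : ℕ) (a : List ℤ) : List ℤ :=
  (List.range n).map fun k => if e ∣ k then a.getD (k / e) 0 else 0

theorem getD_map_range {n : ℕ} (g : ℕ → ℤ) {m : ℕ} (hm : m < n) :
    ((List.range n).map g).getD m 0 = g m := by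
  rw [List.getD_eq_getElem?_getD, List.getElem?_map, List.getElem?_range hm]
  rfl

namespace EqUpTo

variable {n : ℕ} {f g : PowerSeries ℤ} {a b : List ℤ}

theorem congr (h : EqUpTo n f a) (hab : a = b) : EqUpTo n f b := hab ▸ h

theorem mono {n' : ℕ} (h : EqUpTo n f a) (hn : n' ≤ n) : EqUpTo n' f a :=
  fun m hm => h m (hm.trans_le hn)

theorem coeff_eq (h : EqUpTo n f a) {m : ℕ} (hm : m < n) : coeff m f = a.getD m 0 := h m hm

theorem add (hf : EqUpTo n f a) (hg : EqUpTo n g b) : EqUpTo n (f + g) (addL n a b) := by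
  intro m hm
  rw [map_add, hf m hm, hg m hm, addL, getD_map_range _ hm]

theorem sub (hf : EqUpTo n f a) (hg : EqUpTo n g b) : EqUpTo n (f - g) (subL n a b) := by
  intro m hm
  rw [map_sub, hf m hm, hg m hm, subL, getD_map_range _ hm]

theorem mul (hf : EqUpTo n f a) (hg : EqUpTo n g b) : EqUpTo n (f * g) (mulL n a b) := by
  intro m hm
  rw [mulL, getD_map_range _ hm, mulCoeffL, coeff_mul,
    Finset.Nat.sum_antidiagonal_eq_sum_range_succ (fun i j => coeff i f * coeff j g),
    ← List.toFinset_range, List.sum_toFinset _ List.nodup_range]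
  congr 1
  refine List.map_congr_left fun i hi => ?_
  rw [List.mem_range] at hi
  rw [hf i (by omega), hg (m - i) (by omega)]

theorem smul (c : ℤ) (hf : EqUpTo n f a) : EqUpTo n (c • f) (smulL c a) := by
  intro m hm
  rw [map_zsmul, hf m hm, smulL, smul_eq_mul, List.getD_eq_getElem?_getD,
    List.getD_eq_getElem?_getD, List.getElem?_map]
  cases a[m]? <;> simp

theorem intCast_mul (c : ℤ) (hf : EqUpTo n f a) :
    EqUpTo n ((c : PowerSeries ℤ) * f) (smulL c a) := by
  have h : (c : PowerSeries ℤ) * f = c • f := by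
    rw [zsmul_eq_mul]
  rw [h]
  exact hf.smul c

theorem ofNat_mul (c : ℕ) [c.AtLeastTwo] (hf : EqUpTo n f a) :
    EqUpTo n ((OfNat.ofNat c : PowerSeries ℤ) * f) (smulL (OfNat.ofNat c) a) := by
  have h := hf.intCast_mul (OfNat.ofNat c)
  have h2 : ((OfNat.ofNat c : ℤ) : PowerSeries ℤ) = (OfNat.ofNat c : PowerSeries ℤ) := by
    simp
  rwa [h2] at h

theorem one (n : ℕ) : EqUpTo n (1 : PowerSeries ℤ) [1] := by
  intro m _
  rw [coeff_one]
  cases m <;> simp

theorem pow (hf : EqUpTo n f a) : ∀ k : ℕ, EqUpTo n (f ^ k) (Nat.rec [1] (fun _ l => mulL n l a) k)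
  | 0 => by simpa using one n
  | k + 1 => by
    rw [pow_succ]
    exact (pow hf k).mul hf

theorem expand {e : ℕ} (he : e ≠ 0) (hf : EqUpTo n f a) :
    EqUpTo n (PowerSeries.expand e he f) (expandL n e a) := by
  intro m hm
  rw [expandL, getD_map_range _ hm, coeff_expand]
  split_ifs with h
  · exact hf _ (lt_of_le_of_lt (Nat.div_le_self m e) hm)
  · rfl

theorem X_mul (hf : EqUpTo n f a) : EqUpTo (n + 1) (X * f) (0 :: a) := by
  intro m hm
  cases m with
  | zero => simp
  | succ m =>
    rw [coeff_succ_X_mul, hf m (by omega)]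
    simp

/-- all listed coefficients vanish -/
theorem coeff_eq_zero (hf : EqUpTo n f a) (ha : ∀ m < n, a.getD m 0 = 0) {m : ℕ} (hm : m < n) :
    coeff m f = 0 := by
  rw [hf m hm, ha m hm]

end EqUpTo

end Fermat.Agent.GJ.Haupt
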