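/-
GATE-J / J1-HAUPT, file 3: the first ten coefficients of `E₄`, `Δ` and of their dilates, in the
`EqUpTo` calculus of `Trunc.lean`, together with the `ZExp` facts of `Forms.lean`.
-/
import Fermat.Agent.GJ.Haupt.Trunc
import Fermat.Agent.GJ.Haupt.Forms

set_option autoImplicit false

noncomputable section

namespace Fermat.Agent.GJ.Haupt

open PowerSeries Fermat.Agent.S16.L1h67
open scoped ArithmeticFunction.sigma

/-- `E₄(q^M)` in `ℤ⟦q⟧` -/
def e4d (M : ℕ) [NeZero M] : PowerSeries ℤ := PowerSeries.expand M (NeZero.ne M) e4Z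

/-- `Δ(q^M)` in `ℤ⟦q⟧` -/
def dd (M : ℕ) [NeZero M] : PowerSeries ℤ := PowerSeries.expand M (NeZero.ne M) deltaZ

theorem t_sig3 : EqUpTo 10 (sigmaSeries 3) [0, 1, 9, 28, 73, 126, 252, 344, 585, 757] := by
  intro m hm
  rw [coeff_sigmaSeries]
  interval_cases m <;> decide

theorem t_sig5 :
    EqUpTo 10 (sigmaSeries 5) [0, 1, 33, 244, 1057, 3126, 8052, 16808, 33825, 59293] := by
  intro m hm
  rw [coeff_sigmaSeries]
  interval_cases m <;> decide

theorem t_cSeries :
    EqUpTo 10 cSeries [0, 1, 23, 154, 647, 1876, 4802, 9948, 19975, 34903] := by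
  intro m hm
  rw [cSeries, coeff_mk]
  interval_cases m <;> decide

theorem t_e4 :
    EqUpTo 10 e4Z [1, 240, 2160, 6720, 17520, 30240, 60480, 82560, 140400, 181680] := by
  intro m hm
  rw [coeff_e4Z]
  interval_cases m <;> decide

theorem t_d :
    EqUpTo 10 deltaZ [0, 1, -24, 252, -1472, 4830, -6048, -16744, 84480, -113643] := by
  have h2 := (t_sig3.mul t_sig3).congr
    (b := [0, 0, 1, 18, 137, 650, 2350, 6860, 17609, 39870]) (by decide +kernel)
  have h3 := (h2.mul t_sig3).congr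
    (b := [0, 0, 0, 1, 27, 327, 2460, 13476, 58731, 214741]) (by decide +kernel)
  have h5 := (t_sig5.mul t_sig5).congr
    (b := [0, 0, 1, 66, 1577, 18218, 135550, 738236, 3207785, 11714718]) (by decide +kernel)
  have h := ((t_cSeries.add (h2.ofNat_mul 100)).add (h3.ofNat_mul 8000)).sub (h5.ofNat_mul 147)
  rw [deltaZ, pow_two, pow_succ, pow_two, pow_two]
  exact h.congr (by decide +kernel)

theorem z_e4 (M : ℕ) : ZExp M 4 e4Z := zexp_e4 M

theorem z_d (M : ℕ) : ZExp M 12 deltaZ := zexp_delta M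

theorem z_e4d (M : ℕ) [NeZero M] : ZExp M 4 (e4d M) := zexp_e4_dil M

theorem z_dd (M : ℕ) [NeZero M] : ZExp M 12 (dd M) := zexp_delta_dil M

theorem t_e4d (M : ℕ) [NeZero M] : EqUpTo 10 (e4d M) (expandL 10 M
    [1, 240, 2160, 6720, 17520, 30240, 60480, 82560, 140400, 181680]) :=
  t_e4.expand (NeZero.ne M)

theorem t_dd (M : ℕ) [NeZero M] : EqUpTo 10 (dd M) (expandL 10 M
    [0, 1, -24, 252, -1472, 4830, -6048, -16744, 84480, -113643]) :=
  t_d.expand (NeZero.ne M)

end Fermat.Agent.GJ.Haupt
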