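/-
GATE-J / J1-HAUPT: level 2 identities in `ℤ⟦q⟧` (GENERATED by a script; each step is a
kernel-checked computation on literal coefficient lists, the identity itself is Sturm's bound).
-/
import Fermat.Agent.GJ.Haupt.Base

set_option autoImplicit false
set_option maxRecDepth 100000

noncomputable section

namespace Fermat.Agent.GJ.Haupt.L2

open PowerSeries Fermat.Agent.S16.L1h67 Fermat.Agent.GJ.Haupt

theorem t_b1 : EqUpTo 10 (e4d 2) [1, 0, 240, 0, 2160, 0, 6720, 0, 17520, 0] :=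
  ((t_e4d 2).mono (by norm_num)).congr (by decide +kernel)

theorem z_b1 : ZExp 2 4 (e4d 2) :=
  z_e4d 2

theorem t_b2 : EqUpTo 10 (dd 2) [0, 0, 1, 0, -24, 0, 252, 0, -1472, 0] :=
  ((t_dd 2).mono (by norm_num)).congr (by decide +kernel)

theorem z_b2 : ZExp 2 12 (dd 2) :=
  z_dd 2

theorem t_m3 : EqUpTo 10 (e4Z * e4Z) [1, 480, 61920, 1050240, 7926240, 37500480, 135480960, 395301120, 1014559200, 2296875360] :=
  ((t_e4.mono (by norm_num)).mul (t_e4.mono (by norm_num))).congr (by decide +kernel)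

theorem z_m3 : ZExp 2 8 (e4Z * e4Z) :=
  (z_e4 2).mul (z_e4 2) (by norm_num)

theorem t_m4 : EqUpTo 10 ((e4Z * e4Z) * e4Z) [1, 720, 179280, 16954560, 396974160, 4632858720, 34413301440, 187477879680, 814940600400, 2975469665040] :=
  (t_m3.mul (t_e4.mono (by norm_num))).congr (by decide +kernel)

theorem z_m4 : ZExp 2 12 ((e4Z * e4Z) * e4Z) :=
  z_m3.mul (z_e4 2) (by norm_num)

theorem t_m5 : EqUpTo 10 (deltaZ * (dd 2)) [0, 0, 0, 1, -24, 228, -896, -966, 23232, -70632] :=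
  ((t_d.mono (by norm_num)).mul t_b2).congr (by decide +kernel)

theorem z_m5 : ZExp 2 24 (deltaZ * (dd 2)) :=
  (z_d 2).mul z_b2 (by norm_num)

theorem t_m6 : EqUpTo 10 (((e4Z * e4Z) * e4Z) * (deltaZ * (dd 2))) [0, 0, 0, 1, 696, 162228, 12815104, 30294474, -1190188608, -1613013192] :=
  (t_m4.mul t_m5).congr (by decide +kernel)

theorem z_m6 : ZExp 2 36 (((e4Z * e4Z) * e4Z) * (deltaZ * (dd 2))) :=
  z_m4.mul z_m5 (by norm_num)

theorem t_c7 : EqUpTo 10 (256 * (dd 2)) [0, 0, 256, 0, -6144, 0, 64512, 0, -376832, 0] :=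
  (t_b2.ofNat_mul 256).congr (by decide +kernel)

theorem z_c7 : ZExp 2 12 (256 * (dd 2)) :=
  z_b2.ofNat_mul 256

theorem t_a8 : EqUpTo 10 (deltaZ + (256 * (dd 2))) [0, 1, 232, 252, -7616, 4830, 58464, -16744, -292352, -113643] :=
  ((t_d.mono (by norm_num)).add t_c7).congr (by decide +kernel)

theorem z_a8 : ZExp 2 12 (deltaZ + (256 * (dd 2))) :=
  (z_d 2).add z_c7

theorem t_m9 : EqUpTo 10 ((deltaZ + (256 * (dd 2))) * (deltaZ + (256 * (dd 2)))) [0, 0, 1, 464, 54328, 101696, -3460660, -1480416, 87531584, -52458624] :=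
  (t_a8.mul t_a8).congr (by decide +kernel)

theorem z_m9 : ZExp 2 24 ((deltaZ + (256 * (dd 2))) * (deltaZ + (256 * (dd 2)))) :=
  z_a8.mul z_a8 (by norm_num)

theorem t_m10 : EqUpTo 10 (((deltaZ + (256 * (dd 2))) * (deltaZ + (256 * (dd 2)))) * (deltaZ + (256 * (dd 2)))) [0, 0, 0, 1, 696, 162228, 12815104, 30294474, -1190188608, -1613013192] :=
  (t_m9.mul t_a8).congr (by decide +kernel)

theorem z_m10 : ZExp 2 36 (((deltaZ + (256 * (dd 2))) * (deltaZ + (256 * (dd 2)))) * (deltaZ + (256 * (dd 2)))) :=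
  z_m9.mul z_a8 (by norm_num)

theorem t_s11 : EqUpTo 10 (((e4Z * e4Z) * e4Z) * (deltaZ * (dd 2)) - (((deltaZ + (256 * (dd 2))) * (deltaZ + (256 * (dd 2)))) * (deltaZ + (256 * (dd 2))))) [0, 0, 0, 0, 0, 0, 0, 0, 0, 0] :=
  (t_m6.sub t_m10).congr (by decide +kernel)

theorem z_s11 : ZExp 2 36 (((e4Z * e4Z) * e4Z) * (deltaZ * (dd 2)) - (((deltaZ + (256 * (dd 2))) * (deltaZ + (256 * (dd 2)))) * (deltaZ + (256 * (dd 2))))) :=
  z_m6.sub z_m10

theorem ident_A : ((e4Z * e4Z) * e4Z) * (deltaZ * (dd 2)) = ((deltaZ + (256 * (dd 2))) * (deltaZ + (256 * (dd 2)))) * (deltaZ + (256 * (dd 2))) := by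
  refine sub_eq_zero.mp (z_s11.eq_zero index_Gamma0_two fun m hm => ?_)
  have hm' : m < 10 := by
    have h : ((36 : ℤ) * (3 : ℕ)).toNat / 12 = 9 := by decide
    omega
  exact t_s11.coeff_eq_zero (by decide) hm'

theorem t_m12 : EqUpTo 10 ((e4d 2) * (e4d 2)) [1, 0, 480, 0, 61920, 0, 1050240, 0, 7926240, 0] :=
  (t_b1.mul t_b1).congr (by decide +kernel)

theorem z_m12 : ZExp 2 8 ((e4d 2) * (e4d 2)) :=
  z_b1.mul z_b1 (by norm_num)

theorem t_m13 : EqUpTo 10 (((e4d 2) * (e4d 2)) * (e4d 2)) [1, 0, 720, 0, 179280, 0, 16954560, 0, 396974160, 0] :=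
  (t_m12.mul t_b1).congr (by decide +kernel)

theorem z_m13 : ZExp 2 12 (((e4d 2) * (e4d 2)) * (e4d 2)) :=
  z_m12.mul z_b1 (by norm_num)

theorem t_m14 : EqUpTo 10 ((((e4d 2) * (e4d 2)) * (e4d 2)) * (deltaZ * (dd 2))) [0, 0, 0, 1, -24, 948, -18176, 342474, -4924608, 57064248] :=
  (t_m13.mul t_m5).congr (by decide +kernel)

theorem z_m14 : ZExp 2 36 ((((e4d 2) * (e4d 2)) * (e4d 2)) * (deltaZ * (dd 2))) :=
  z_m13.mul z_m5 (by norm_num)

theorem t_c15 : EqUpTo 10 (16 * (dd 2)) [0, 0, 16, 0, -384, 0, 4032, 0, -23552, 0] :=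
  (t_b2.ofNat_mul 16).congr (by decide +kernel)

theorem z_c15 : ZExp 2 12 (16 * (dd 2)) :=
  z_b2.ofNat_mul 16

theorem t_a16 : EqUpTo 10 (deltaZ + (16 * (dd 2))) [0, 1, -8, 252, -1856, 4830, -2016, -16744, 60928, -113643] :=
  ((t_d.mono (by norm_num)).add t_c15).congr (by decide +kernel)

theorem z_a16 : ZExp 2 12 (deltaZ + (16 * (dd 2))) :=
  (z_d 2).add z_c15

theorem t_m17 : EqUpTo 10 ((deltaZ + (16 * (dd 2))) * (deltaZ + (16 * (dd 2)))) [0, 0, 1, -16, 568, -7744, 102860, -1016736, 5877824, -18555264] :=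
  (t_a16.mul t_a16).congr (by decide +kernel)

theorem z_m17 : ZExp 2 24 ((deltaZ + (16 * (dd 2))) * (deltaZ + (16 * (dd 2)))) :=
  z_a16.mul z_a16 (by norm_num)

theorem t_m18 : EqUpTo 10 (((deltaZ + (16 * (dd 2))) * (deltaZ + (16 * (dd 2)))) * (deltaZ + (16 * (dd 2)))) [0, 0, 0, 1, -24, 948, -18176, 342474, -4924608, 57064248] :=
  (t_m17.mul t_a16).congr (by decide +kernel)

theorem z_m18 : ZExp 2 36 (((deltaZ + (16 * (dd 2))) * (deltaZ + (16 * (dd 2)))) * (deltaZ + (16 * (dd 2)))) :=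
  z_m17.mul z_a16 (by norm_num)

theorem t_s19 : EqUpTo 10 ((((e4d 2) * (e4d 2)) * (e4d 2)) * (deltaZ * (dd 2)) - (((deltaZ + (16 * (dd 2))) * (deltaZ + (16 * (dd 2)))) * (deltaZ + (16 * (dd 2))))) [0, 0, 0, 0, 0, 0, 0, 0, 0, 0] :=
  (t_m14.sub t_m18).congr (by decide +kernel)

theorem z_s19 : ZExp 2 36 ((((e4d 2) * (e4d 2)) * (e4d 2)) * (deltaZ * (dd 2)) - (((deltaZ + (16 * (dd 2))) * (deltaZ + (16 * (dd 2)))) * (deltaZ + (16 * (dd 2))))) :=
  z_m14.sub z_m18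

theorem ident_B : (((e4d 2) * (e4d 2)) * (e4d 2)) * (deltaZ * (dd 2)) = ((deltaZ + (16 * (dd 2))) * (deltaZ + (16 * (dd 2)))) * (deltaZ + (16 * (dd 2))) := by
  refine sub_eq_zero.mp (z_s19.eq_zero index_Gamma0_two fun m hm => ?_)
  have hm' : m < 10 := by
    have h : ((36 : ℤ) * (3 : ℕ)).toNat / 12 = 9 := by decide
    omega
  exact t_s19.coeff_eq_zero (by decide) hm'

end Fermat.Agent.GJ.Haupt.L2
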