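/-
GATE-J / J1-HAUPT, file 5: the Hauptmodul `t₂ = Δ(q)/Δ(q²)` of `X₀(2)` as a formal Laurent series
over an arbitrary commutative ring, and its two relations with `j(q)`, `j(q²)`:

  `j(q) · t₂² = (t₂ + 256)³`,      `j(q²) · t₂ = (t₂ + 16)³`.
-/
import Fermat.Agent.GJ.Haupt.Level2Data
import Fermat.Agent.S28.CuspSeries
import Fermat.Agent.S28.CuspExp
import Fermat.Agent.S16.U2Seven.LevelOneSturm

set_option autoImplicit false

noncomputable section

namespace Fermat.Agent.GJ.Haupt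

open PowerSeries ModularCurve Fermat.Agent.S28 Fermat.Agent.S16.L1h67
open scoped ArithmeticFunction.sigma

/-! ### bridges between the two families of integral series -/

theorem e4Z_eq_eisenstein4 : e4Z = eisenstein4 := by
  ext n
  rw [coeff_e4Z, eisenstein4, coeff_mk]
  split_ifs with h
  · rfl
  · rw [ArithmeticFunction.sigma_apply]
    push_cast
    rfl

theorem deltaZ_eq : deltaZ = X * dedekindEtaUnit := by
  apply zc_injective
  have h1 := Fermat.Agent.S16.L1h67.qExpansion_discriminant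
  have h2 := Fermat.Agent.S16.U2Seven.qExpansion_discriminant
  rw [h1] at h2
  show (map (Int.castRingHom ℂ)) deltaZ = (map (Int.castRingHom ℂ)) (X * dedekindEtaUnit)
  rw [h2, toC, map_mul, PowerSeries.map_X]

theorem map_castRingHom_int (p : PowerSeries ℤ) : p.map (Int.castRingHom ℤ) = p := by
  ext n
  simp

/-- the ring homomorphism `ℤ⟦q⟧ → ℤ((q))` -/
abbrev ofPS : PowerSeries ℤ →+* LaurentSeries ℤ := HahnSeries.ofPowerSeries ℤ ℤ

theorem ofPS_e4Z : ofPS e4Z = e4S ℤ := by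
  rw [e4S, map_castRingHom_int, e4Z_eq_eisenstein4]

theorem ofPS_deltaZ : ofPS deltaZ = deltaS ℤ := by
  rw [deltaS, map_castRingHom_int, deltaZ_eq, map_mul, HahnSeries.ofPowerSeries_X]

theorem ofPS_expand (M : ℕ) [NeZero M] (p : PowerSeries ℤ) :
    ofPS (PowerSeries.expand M (NeZero.ne M) p) = qExpand ℤ M (ofPS p) :=
  (qExpand_ofPowerSeries M p).symm

theorem ofPS_e4d (M : ℕ) [NeZero M] : ofPS (e4d M) = qExpand ℤ M (e4S ℤ) := by
  rw [e4d, ofPS_expand, ofPS_e4Z]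

theorem ofPS_dd (M : ℕ) [NeZero M] : ofPS (dd M) = qExpand ℤ M (deltaS ℤ) := by
  rw [dd, ofPS_expand, ofPS_deltaZ]

/-! ### two algebraic lemmas -/

theorem rel2a {A : Type*} [CommRing A] (E D D' v u c : A) (hu : D' * u = 1) (hv : D * v = 1)
    (h : E * E * E * (D * D') = (D + c * D') * (D + c * D') * (D + c * D')) :
    (E ^ 3 * v) * (u * D) ^ 2 = (u * D + c) ^ 3 := by
  linear_combination (E^3*u^2*D) * hv + (-(u^2*E^3*D) + 3*(u*(D+c*D'))^2*c
    - 3*(u*(D+c*D'))*c^2*(D'*u-1) + c^3*(D'*u-1)^2) * hu + u^3 * h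

theorem rel2b {A : Type*} [CommRing A] (E' D D' u c : A) (hu : D' * u = 1)
    (h : E' * E' * E' * (D * D') = (D + c * D') * (D + c * D') * (D + c * D')) :
    (E' ^ 3 * u) * (u * D) = (u * D + c) ^ 3 := by
  linear_combination (-(u^2*E'^3*D) + 3*(u*(D+c*D'))^2*c
    - 3*(u*(D+c*D'))*c^2*(D'*u-1) + c^3*(D'*u-1)^2) * hu + u^3 * h

/-! ### the Hauptmodul of level 2 -/

variable (R : Type*) [CommRing R]

/-- `t₂ = Δ(q)/Δ(q²) = q⁻¹ - 24 + 276 q - …`, the Hauptmodul of `X₀(2)`. -/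
def tM2 : LaurentSeries R := uInvS R 2

theorem coeffMap_tM2 {S : Type*} [CommRing S] (f : R →+* S) : coeffMap f (tM2 R) = tM2 S :=
  coeffMap_uInvS f 2

theorem tM2_int_rel_j : jqModC ℤ * tM2 ℤ ^ 2 = (tM2 ℤ + 256) ^ 3 := by
  have h := congrArg ofPS L2.ident_A
  simp only [map_mul, map_add, map_ofNat, ofPS_e4Z, ofPS_deltaZ, ofPS_dd] at h
  have hu : qExpand ℤ 2 (deltaS ℤ) * qExpand ℤ 2 (deltaInvS ℤ) = 1 := by
    rw [← map_mul, deltaS_mul_deltaInvS, map_one]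
  have hv := deltaS_mul_deltaInvS ℤ
  rw [jqModC_eq_e4S_deltaInvS, tM2, uInvS]
  exact rel2a _ _ _ _ _ _ hu hv h

theorem tM2_int_rel_j2 : qExpand ℤ 2 (jqModC ℤ) * tM2 ℤ = (tM2 ℤ + 16) ^ 3 := by
  have h := congrArg ofPS L2.ident_B
  simp only [map_mul, map_add, map_ofNat, ofPS_e4d, ofPS_deltaZ, ofPS_dd] at h
  have hu : qExpand ℤ 2 (deltaS ℤ) * qExpand ℤ 2 (deltaInvS ℤ) = 1 := by
    rw [← map_mul, deltaS_mul_deltaInvS, map_one]
  rw [jqModC_eq_e4S_deltaInvS, map_mul, map_pow, tM2, uInvS]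
  exact rel2b _ _ _ _ _ hu h

/-- `j(q) · t₂² = (t₂ + 256)³` -/
theorem jq_mul_tM2_sq : jqModC R * tM2 R ^ 2 = (tM2 R + 256) ^ 3 := by
  have h := congrArg (coeffMap (Int.castRingHom R)) tM2_int_rel_j
  simpa only [map_mul, map_pow, map_add, map_ofNat, coeffMap_jqModC, coeffMap_tM2] using h

/-- `j(q²) · t₂ = (t₂ + 16)³` -/
theorem jq2_mul_tM2 : qExpand R 2 (jqModC R) * tM2 R = (tM2 R + 16) ^ 3 := by
  have h := congrArg (coeffMap (Int.castRingHom R)) tM2_int_rel_j2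
  simpa only [map_mul, map_pow, map_add, map_ofNat, coeffMap_qExpand, coeffMap_jqModC,
    coeffMap_tM2] using h

end Fermat.Agent.GJ.Haupt
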