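/-
GATE-J / J1-HAUPT: level 3 identities in `ℤ⟦q⟧` (GENERATED by a script; each step is a
kernel-checked computation on literal coefficient lists, the identity itself is Sturm's bound).
-/
import Fermat.Agent.GJ.Haupt.Base

set_option autoImplicit false
set_option maxRecDepth 100000

noncomputable section

namespace Fermat.Agent.GJ.Haupt.L3

open PowerSeries Fermat.Agent.S16.L1h67 Fermat.Agent.GJ.Haupt

theorem t_b1 : EqUpTo 10 (e4d 3) [1, 0, 0, 240, 0, 0, 2160, 0, 0, 6720] :=
  ((t_e4d 3).mono (by norm_num)).congr (by decide +kernel)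

theorem z_b1 : ZExp 3 4 (e4d 3) :=
  z_e4d 3

theorem t_b2 : EqUpTo 10 (dd 3) [0, 0, 0, 1, 0, 0, -24, 0, 0, 252] :=
  ((t_dd 3).mono (by norm_num)).congr (by decide +kernel)

theorem z_b2 : ZExp 3 12 (dd 3) :=
  z_dd 3

theorem t_m3 : EqUpTo 10 (e4Z * e4Z) [1, 480, 61920, 1050240, 7926240, 37500480, 135480960, 395301120, 1014559200, 2296875360] :=
  ((t_e4.mono (by norm_num)).mul (t_e4.mono (by norm_num))).congr (by decide +kernel)

theorem z_m3 : ZExp 3 8 (e4Z * e4Z) :=
  (z_e4 3).mul (z_e4 3) (by norm_num)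

theorem t_m4 : EqUpTo 10 ((e4Z * e4Z) * e4Z) [1, 720, 179280, 16954560, 396974160, 4632858720, 34413301440, 187477879680, 814940600400, 2975469665040] :=
  (t_m3.mul (t_e4.mono (by norm_num))).congr (by decide +kernel)

theorem z_m4 : ZExp 3 12 ((e4Z * e4Z) * e4Z) :=
  z_m3.mul (z_e4 3) (by norm_num)

theorem t_m5 : EqUpTo 10 ((e4d 3) * (e4d 3)) [1, 0, 0, 480, 0, 0, 61920, 0, 0, 1050240] :=
  (t_b1.mul t_b1).congr (by decide +kernel)

theorem z_m5 : ZExp 3 8 ((e4d 3) * (e4d 3)) :=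
  z_b1.mul z_b1 (by norm_num)

theorem t_m6 : EqUpTo 10 (((e4d 3) * (e4d 3)) * (e4d 3)) [1, 0, 0, 720, 0, 0, 179280, 0, 0, 16954560] :=
  (t_m5.mul t_b1).congr (by decide +kernel)

theorem z_m6 : ZExp 3 12 (((e4d 3) * (e4d 3)) * (e4d 3)) :=
  z_m5.mul z_b1 (by norm_num)

theorem t_m7 : EqUpTo 10 ((e4Z * e4Z) * (e4d 3)) [1, 480, 61920, 1050480, 8041440, 52361280, 387540720, 2298635520, 10148421600, 37080830880] :=
  (t_m3.mul t_b1).congr (by decide +kernel)

theorem z_m7 : ZExp 3 12 ((e4Z * e4Z) * (e4d 3)) :=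
  z_m3.mul z_b1 (by norm_num)

theorem t_c8 : EqUpTo 10 (163 * ((e4Z * e4Z) * (e4d 3))) [163, 78240, 10092960, 171228240, 1310754720, 8534888640, 63169137360, 374677589760, 1654192720800, 6044175433440] :=
  (t_m7.ofNat_mul 163).congr (by decide +kernel)

theorem z_c8 : ZExp 3 12 (163 * ((e4Z * e4Z) * (e4d 3))) :=
  z_m7.ofNat_mul 163

theorem t_m9 : EqUpTo 10 (e4Z * ((e4d 3) * (e4d 3))) [1, 240, 2160, 7200, 132720, 1067040, 3348000, 23352960, 148402800, 446364720] :=
  ((t_e4.mono (by norm_num)).mul t_m5).congr (by decide +kernel)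

theorem z_m9 : ZExp 3 12 (e4Z * ((e4d 3) * (e4d 3))) :=
  (z_e4 3).mul z_m5 (by norm_num)

theorem t_c10 : EqUpTo 10 (6723 * (e4Z * ((e4d 3) * (e4d 3)))) [6723, 1613520, 14521680, 48405600, 892276560, 7173709920, 22508604000, 157001950080, 997712024400, 3000910012560] :=
  (t_m9.ofNat_mul 6723).congr (by decide +kernel)

theorem z_c10 : ZExp 3 12 (6723 * (e4Z * ((e4d 3) * (e4d 3)))) :=
  z_m9.ofNat_mul 6723

theorem t_c11 : EqUpTo 10 (6561 * (((e4d 3) * (e4d 3)) * (e4d 3))) [6561, 0, 0, 4723920, 0, 0, 1176256080, 0, 0, 111238868160] :=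
  (t_m6.ofNat_mul 6561).congr (by decide +kernel)

theorem z_c11 : ZExp 3 12 (6561 * (((e4d 3) * (e4d 3)) * (e4d 3))) :=
  z_m6.ofNat_mul 6561

theorem t_c12 : EqUpTo 10 (1536000 * deltaZ) [0, 1536000, -36864000, 387072000, -2260992000, 7418880000, -9289728000, -25718784000, 129761280000, -174555648000] :=
  ((t_d.mono (by norm_num)).ofNat_mul 1536000).congr (by decide +kernel)

theorem z_c12 : ZExp 3 12 (1536000 * deltaZ) :=
  (z_d 3).ofNat_mul 1536000

theorem t_s13 : EqUpTo 10 ((e4Z * e4Z) * e4Z - (163 * ((e4Z * e4Z) * (e4d 3)))) [-162, -77520, -9913680, -154273680, -913780560, -3902029920, -28755835920, -187199710080, -839252120400, -3068705768400] :=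
  (t_m4.sub t_c8).congr (by decide +kernel)

theorem z_s13 : ZExp 3 12 ((e4Z * e4Z) * e4Z - (163 * ((e4Z * e4Z) * (e4d 3)))) :=
  z_m4.sub z_c8

theorem t_a14 : EqUpTo 10 ((e4Z * e4Z) * e4Z - (163 * ((e4Z * e4Z) * (e4d 3))) + (6723 * (e4Z * ((e4d 3) * (e4d 3))))) [6561, 1536000, 4608000, -105868080, -21504000, 3271680000, -6247231920, -30197760000, 158459904000, -67795755840] :=
  (t_s13.add t_c10).congr (by decide +kernel)

theorem z_a14 : ZExp 3 12 ((e4Z * e4Z) * e4Z - (163 * ((e4Z * e4Z) * (e4d 3))) + (6723 * (e4Z * ((e4d 3) * (e4d 3))))) :=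
  z_s13.add z_c10

theorem t_s15 : EqUpTo 10 ((e4Z * e4Z) * e4Z - (163 * ((e4Z * e4Z) * (e4d 3))) + (6723 * (e4Z * ((e4d 3) * (e4d 3)))) - (6561 * (((e4d 3) * (e4d 3)) * (e4d 3)))) [0, 1536000, 4608000, -110592000, -21504000, 3271680000, -7423488000, -30197760000, 158459904000, -179034624000] :=
  (t_a14.sub t_c11).congr (by decide +kernel)

theorem z_s15 : ZExp 3 12 ((e4Z * e4Z) * e4Z - (163 * ((e4Z * e4Z) * (e4d 3))) + (6723 * (e4Z * ((e4d 3) * (e4d 3)))) - (6561 * (((e4d 3) * (e4d 3)) * (e4d 3)))) :=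
  z_a14.sub z_c11

theorem t_s16 : EqUpTo 10 ((e4Z * e4Z) * e4Z - (163 * ((e4Z * e4Z) * (e4d 3))) + (6723 * (e4Z * ((e4d 3) * (e4d 3)))) - (6561 * (((e4d 3) * (e4d 3)) * (e4d 3))) - (1536000 * deltaZ)) [0, 0, 41472000, -497664000, 2239488000, -4147200000, 1866240000, -4478976000, 28698624000, -4478976000] :=
  (t_s15.sub t_c12).congr (by decide +kernel)

theorem z_s16 : ZExp 3 12 ((e4Z * e4Z) * e4Z - (163 * ((e4Z * e4Z) * (e4d 3))) + (6723 * (e4Z * ((e4d 3) * (e4d 3)))) - (6561 * (((e4d 3) * (e4d 3)) * (e4d 3))) - (1536000 * deltaZ)) :=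
  z_s15.sub z_c12

/-- `41472000 · η(q)¹² η(q³)¹²` as an integral combination of Eisenstein monomials -/
def P0 : PowerSeries ℤ := (e4Z * e4Z) * e4Z - (163 * ((e4Z * e4Z) * (e4d 3))) + (6723 * (e4Z * ((e4d 3) * (e4d 3)))) - (6561 * (((e4d 3) * (e4d 3)) * (e4d 3))) - (1536000 * deltaZ)

theorem t_P0 : EqUpTo 10 P0 [0, 0, 41472000, -497664000, 2239488000, -4147200000, 1866240000, -4478976000, 28698624000, -4478976000] := t_s16

theorem coeff_two_P0 : coeff 2 P0 = 41472000 := t_P0.coeff_eq (by norm_num)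

theorem t_m17 : EqUpTo 10 (deltaZ * (dd 3)) [0, 0, 0, 0, 1, -24, 252, -1496, 5406, -12096] :=
  ((t_d.mono (by norm_num)).mul t_b2).congr (by decide +kernel)

theorem z_m17 : ZExp 3 24 (deltaZ * (dd 3)) :=
  (z_d 3).mul z_b2 (by norm_num)

theorem t_m18 : EqUpTo 10 (P0 * P0) [0, 0, 0, 0, 1719926784000000, -41278242816000000, 433421549568000000, -2573010468864000000, 9297924194304000000, -20804234379264000000] :=
  ((show EqUpTo 10 P0 _ from t_s16).mul (show EqUpTo 10 P0 _ from t_s16)).congr (by decide +kernel)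

theorem z_m18 : ZExp 3 24 (P0 * P0) :=
  (show ZExp 3 12 P0 from z_s16).mul (show ZExp 3 12 P0 from z_s16) (by norm_num)

theorem t_c19 : EqUpTo 10 (1719926784000000 * (deltaZ * (dd 3))) [0, 0, 0, 0, 1719926784000000, -41278242816000000, 433421549568000000, -2573010468864000000, 9297924194304000000, -20804234379264000000] :=
  (t_m17.ofNat_mul 1719926784000000).congr (by decide +kernel)

theorem z_c19 : ZExp 3 24 (1719926784000000 * (deltaZ * (dd 3))) :=
  z_m17.ofNat_mul 1719926784000000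

theorem t_s20 : EqUpTo 10 (P0 * P0 - (1719926784000000 * (deltaZ * (dd 3)))) [0, 0, 0, 0, 0, 0, 0, 0, 0, 0] :=
  (t_m18.sub t_c19).congr (by decide +kernel)

theorem z_s20 : ZExp 3 24 (P0 * P0 - (1719926784000000 * (deltaZ * (dd 3)))) :=
  z_m18.sub z_c19

theorem ident_P : P0 * P0 = 1719926784000000 * (deltaZ * (dd 3)) := by
  refine sub_eq_zero.mp (z_s20.eq_zero index_Gamma0_three fun m hm => ?_)
  have hm' : m < 10 := by
    have h : ((24 : ℤ) * (4 : ℕ)).toNat / 12 = 8 := by decide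
    omega
  exact t_s20.coeff_eq_zero (by decide) hm'

theorem t_m21 : EqUpTo 10 (deltaZ * deltaZ) [0, 0, 1, -48, 1080, -15040, 143820, -985824, 4857920, -16295040] :=
  ((t_d.mono (by norm_num)).mul (t_d.mono (by norm_num))).congr (by decide +kernel)

theorem z_m21 : ZExp 3 24 (deltaZ * deltaZ) :=
  (z_d 3).mul (z_d 3) (by norm_num)

theorem t_m22 : EqUpTo 10 ((dd 3) * (dd 3)) [0, 0, 0, 0, 0, 0, 1, 0, 0, -48] :=
  (t_b2.mul t_b2).congr (by decide +kernel)

theorem z_m22 : ZExp 3 24 ((dd 3) * (dd 3)) :=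
  z_b2.mul z_b2 (by norm_num)

theorem t_m23 : EqUpTo 10 (deltaZ * P0) [0, 0, 0, 41472000, -1492992000, 24634368000, -244353024000, 1598621184000, -7045429248000, 19843356672000] :=
  ((t_d.mono (by norm_num)).mul (show EqUpTo 10 P0 _ from t_s16)).congr (by decide +kernel)

theorem z_m23 : ZExp 3 24 (deltaZ * P0) :=
  (z_d 3).mul (show ZExp 3 12 P0 from z_s16) (by norm_num)

theorem t_m24 : EqUpTo 10 ((dd 3) * P0) [0, 0, 0, 0, 0, 41472000, -497664000, 2239488000, -5142528000, 13810176000] :=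
  (t_b2.mul (show EqUpTo 10 P0 _ from t_s16)).congr (by decide +kernel)

theorem z_m24 : ZExp 3 24 ((dd 3) * P0) :=
  z_b2.mul (show ZExp 3 12 P0 from z_s16) (by norm_num)

theorem t_m25 : EqUpTo 10 (((e4Z * e4Z) * e4Z) * P0) [0, 0, 41472000, 29362176000, 7079021568000, 615526594560000, 8424149506560000, 31801531336704000, -59382264969216000, -591419403196416000] :=
  (t_m4.mul (show EqUpTo 10 P0 _ from t_s16)).congr (by decide +kernel)

theorem z_m25 : ZExp 3 24 (((e4Z * e4Z) * e4Z) * P0) :=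
  z_m4.mul (show ZExp 3 12 P0 from z_s16) (by norm_num)

theorem t_c26 : EqUpTo 10 (41472000 * (deltaZ * deltaZ)) [0, 0, 41472000, -1990656000, 44789760000, -623738880000, 5964503040000, -40884092928000, 201467658240000, -675787898880000] :=
  (t_m21.ofNat_mul 41472000).congr (by decide +kernel)

theorem z_c26 : ZExp 3 24 (41472000 * (deltaZ * deltaZ)) :=
  z_m21.ofNat_mul 41472000

theorem t_c27 : EqUpTo 10 (756 * (deltaZ * P0)) [0, 0, 0, 31352832000, -1128701952000, 18623582208000, -184730886144000, 1208557615104000, -5326344511488000, 15001577644032000] :=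
  (t_m23.ofNat_mul 756).congr (by decide +kernel)

theorem z_c27 : ZExp 3 24 (756 * (deltaZ * P0)) :=
  z_m23.ofNat_mul 756

theorem t_a28 : EqUpTo 10 (41472000 * (deltaZ * deltaZ) + (756 * (deltaZ * P0))) [0, 0, 41472000, 29362176000, -1083912192000, 17999843328000, -178766383104000, 1167673522176000, -5124876853248000, 14325789745152000] :=
  (t_c26.add t_c27).congr (by decide +kernel)

theorem z_a28 : ZExp 3 24 (41472000 * (deltaZ * deltaZ) + (756 * (deltaZ * P0))) :=
  z_c26.add z_c27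

theorem t_c29 : EqUpTo 10 (8162933760000 * (deltaZ * (dd 3))) [0, 0, 0, 0, 8162933760000, -195910410240000, 2057059307520000, -12211748904960000, 44128819906560000, -98738846760960000] :=
  (t_m17.ofNat_mul 8162933760000).congr (by decide +kernel)

theorem z_c29 : ZExp 3 24 (8162933760000 * (deltaZ * (dd 3))) :=
  z_m17.ofNat_mul 8162933760000

theorem t_a30 : EqUpTo 10 (41472000 * (deltaZ * deltaZ) + (756 * (deltaZ * P0)) + (8162933760000 * (deltaZ * (dd 3)))) [0, 0, 41472000, 29362176000, 7079021568000, -177910566912000, 1878292924416000, -11044075382784000, 39003943053312000, -84413057015808000] :=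
  (t_a28.add t_c29).congr (by decide +kernel)

theorem z_a30 : ZExp 3 24 (41472000 * (deltaZ * deltaZ) + (756 * (deltaZ * P0)) + (8162933760000 * (deltaZ * (dd 3)))) :=
  z_a28.add z_c29

theorem t_c31 : EqUpTo 10 (19131876 * ((dd 3) * P0)) [0, 0, 0, 0, 0, 793437161472000, -9521245937664000, 42845606719488000, -98386208022528000, 264214574770176000] :=
  (t_m24.ofNat_mul 19131876).congr (by decide +kernel)

theorem z_c31 : ZExp 3 24 (19131876 * ((dd 3) * P0)) :=
  z_m24.ofNat_mul 19131876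

theorem t_a32 : EqUpTo 10 (41472000 * (deltaZ * deltaZ) + (756 * (deltaZ * P0)) + (8162933760000 * (deltaZ * (dd 3))) + (19131876 * ((dd 3) * P0))) [0, 0, 41472000, 29362176000, 7079021568000, 615526594560000, -7642953013248000, 31801531336704000, -59382264969216000, 179801517754368000] :=
  (t_a30.add t_c31).congr (by decide +kernel)

theorem z_a32 : ZExp 3 24 (41472000 * (deltaZ * deltaZ) + (756 * (deltaZ * P0)) + (8162933760000 * (deltaZ * (dd 3))) + (19131876 * ((dd 3) * P0))) :=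
  z_a30.add z_c31

theorem t_c33 : EqUpTo 10 (16067102519808000 * ((dd 3) * (dd 3))) [0, 0, 0, 0, 0, 0, 16067102519808000, 0, 0, -771220920950784000] :=
  (t_m22.ofNat_mul 16067102519808000).congr (by decide +kernel)

theorem z_c33 : ZExp 3 24 (16067102519808000 * ((dd 3) * (dd 3))) :=
  z_m22.ofNat_mul 16067102519808000

theorem t_a34 : EqUpTo 10 (41472000 * (deltaZ * deltaZ) + (756 * (deltaZ * P0)) + (8162933760000 * (deltaZ * (dd 3))) + (19131876 * ((dd 3) * P0)) + (16067102519808000 * ((dd 3) * (dd 3)))) [0, 0, 41472000, 29362176000, 7079021568000, 615526594560000, 8424149506560000, 31801531336704000, -59382264969216000, -591419403196416000] :=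
  (t_a32.add t_c33).congr (by decide +kernel)

theorem z_a34 : ZExp 3 24 (41472000 * (deltaZ * deltaZ) + (756 * (deltaZ * P0)) + (8162933760000 * (deltaZ * (dd 3))) + (19131876 * ((dd 3) * P0)) + (16067102519808000 * ((dd 3) * (dd 3)))) :=
  z_a32.add z_c33

theorem t_s35 : EqUpTo 10 (((e4Z * e4Z) * e4Z) * P0 - (41472000 * (deltaZ * deltaZ) + (756 * (deltaZ * P0)) + (8162933760000 * (deltaZ * (dd 3))) + (19131876 * ((dd 3) * P0)) + (16067102519808000 * ((dd 3) * (dd 3))))) [0, 0, 0, 0, 0, 0, 0, 0, 0, 0] :=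
  (t_m25.sub t_a34).congr (by decide +kernel)

theorem z_s35 : ZExp 3 24 (((e4Z * e4Z) * e4Z) * P0 - (41472000 * (deltaZ * deltaZ) + (756 * (deltaZ * P0)) + (8162933760000 * (deltaZ * (dd 3))) + (19131876 * ((dd 3) * P0)) + (16067102519808000 * ((dd 3) * (dd 3))))) :=
  z_m25.sub z_a34

theorem ident_A : ((e4Z * e4Z) * e4Z) * P0 = 41472000 * (deltaZ * deltaZ) + (756 * (deltaZ * P0)) + (8162933760000 * (deltaZ * (dd 3))) + (19131876 * ((dd 3) * P0)) + (16067102519808000 * ((dd 3) * (dd 3))) := by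
  refine sub_eq_zero.mp (z_s35.eq_zero index_Gamma0_three fun m hm => ?_)
  have hm' : m < 10 := by
    have h : ((24 : ℤ) * (4 : ℕ)).toNat / 12 = 8 := by decide
    omega
  exact t_s35.coeff_eq_zero (by decide) hm'

theorem t_m36 : EqUpTo 10 ((((e4d 3) * (e4d 3)) * (e4d 3)) * P0) [0, 0, 41472000, -497664000, 2239488000, 25712640000, -356451840000, 1607952384000, 4477814784000, -87881988096000] :=
  (t_m6.mul (show EqUpTo 10 P0 _ from t_s16)).congr (by decide +kernel)

theorem z_m36 : ZExp 3 24 ((((e4d 3) * (e4d 3)) * (e4d 3)) * P0) :=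
  z_m6.mul (show ZExp 3 12 P0 from z_s16) (by norm_num)

theorem t_c37 : EqUpTo 10 (41472000 * (deltaZ * deltaZ)) [0, 0, 41472000, -1990656000, 44789760000, -623738880000, 5964503040000, -40884092928000, 201467658240000, -675787898880000] :=
  (t_m21.ofNat_mul 41472000).congr (by decide +kernel)

theorem z_c37 : ZExp 3 24 (41472000 * (deltaZ * deltaZ)) :=
  z_m21.ofNat_mul 41472000

theorem t_c38 : EqUpTo 10 (36 * (deltaZ * P0)) [0, 0, 0, 1492992000, -53747712000, 886837248000, -8796708864000, 57550362624000, -253635452928000, 714360840192000] :=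
  (t_m23.ofNat_mul 36).congr (by decide +kernel)

theorem z_c38 : ZExp 3 24 (36 * (deltaZ * P0)) :=
  z_m23.ofNat_mul 36

theorem t_a39 : EqUpTo 10 (41472000 * (deltaZ * deltaZ) + (36 * (deltaZ * P0))) [0, 0, 41472000, -497664000, -8957952000, 263098368000, -2832205824000, 16666269696000, -52167794688000, 38572941312000] :=
  (t_c37.add t_c38).congr (by decide +kernel)

theorem z_a39 : ZExp 3 24 (41472000 * (deltaZ * deltaZ) + (36 * (deltaZ * P0))) :=
  z_c37.add z_c38

theorem t_c40 : EqUpTo 10 (11197440000 * (deltaZ * (dd 3))) [0, 0, 0, 0, 11197440000, -268738560000, 2821754880000, -16751370240000, 60533360640000, -135444234240000] :=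
  (t_m17.ofNat_mul 11197440000).congr (by decide +kernel)

theorem z_c40 : ZExp 3 24 (11197440000 * (deltaZ * (dd 3))) :=
  z_m17.ofNat_mul 11197440000

theorem t_a41 : EqUpTo 10 (41472000 * (deltaZ * deltaZ) + (36 * (deltaZ * P0)) + (11197440000 * (deltaZ * (dd 3)))) [0, 0, 41472000, -497664000, 2239488000, -5640192000, -10450944000, -85100544000, 8365565952000, -96871292928000] :=
  (t_a39.add t_c40).congr (by decide +kernel)

theorem z_a41 : ZExp 3 24 (41472000 * (deltaZ * deltaZ) + (36 * (deltaZ * P0)) + (11197440000 * (deltaZ * (dd 3)))) :=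
  z_a39.add z_c40

theorem t_c42 : EqUpTo 10 (756 * ((dd 3) * P0)) [0, 0, 0, 0, 0, 31352832000, -376233984000, 1693052928000, -3887751168000, 10440493056000] :=
  (t_m24.ofNat_mul 756).congr (by decide +kernel)

theorem z_c42 : ZExp 3 24 (756 * ((dd 3) * P0)) :=
  z_m24.ofNat_mul 756

theorem t_a43 : EqUpTo 10 (41472000 * (deltaZ * deltaZ) + (36 * (deltaZ * P0)) + (11197440000 * (deltaZ * (dd 3))) + (756 * ((dd 3) * P0))) [0, 0, 41472000, -497664000, 2239488000, 25712640000, -386684928000, 1607952384000, 4477814784000, -86430799872000] :=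
  (t_a41.add t_c42).congr (by decide +kernel)

theorem z_a43 : ZExp 3 24 (41472000 * (deltaZ * deltaZ) + (36 * (deltaZ * P0)) + (11197440000 * (deltaZ * (dd 3))) + (756 * ((dd 3) * P0))) :=
  z_a41.add z_c42

theorem t_c44 : EqUpTo 10 (30233088000 * ((dd 3) * (dd 3))) [0, 0, 0, 0, 0, 0, 30233088000, 0, 0, -1451188224000] :=
  (t_m22.ofNat_mul 30233088000).congr (by decide +kernel)

theorem z_c44 : ZExp 3 24 (30233088000 * ((dd 3) * (dd 3))) :=
  z_m22.ofNat_mul 30233088000

theorem t_a45 : EqUpTo 10 (41472000 * (deltaZ * deltaZ) + (36 * (deltaZ * P0)) + (11197440000 * (deltaZ * (dd 3))) + (756 * ((dd 3) * P0)) + (30233088000 * ((dd 3) * (dd 3)))) [0, 0, 41472000, -497664000, 2239488000, 25712640000, -356451840000, 1607952384000, 4477814784000, -87881988096000] :=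
  (t_a43.add t_c44).congr (by decide +kernel)

theorem z_a45 : ZExp 3 24 (41472000 * (deltaZ * deltaZ) + (36 * (deltaZ * P0)) + (11197440000 * (deltaZ * (dd 3))) + (756 * ((dd 3) * P0)) + (30233088000 * ((dd 3) * (dd 3)))) :=
  z_a43.add z_c44

theorem t_s46 : EqUpTo 10 ((((e4d 3) * (e4d 3)) * (e4d 3)) * P0 - (41472000 * (deltaZ * deltaZ) + (36 * (deltaZ * P0)) + (11197440000 * (deltaZ * (dd 3))) + (756 * ((dd 3) * P0)) + (30233088000 * ((dd 3) * (dd 3))))) [0, 0, 0, 0, 0, 0, 0, 0, 0, 0] :=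
  (t_m36.sub t_a45).congr (by decide +kernel)

theorem z_s46 : ZExp 3 24 ((((e4d 3) * (e4d 3)) * (e4d 3)) * P0 - (41472000 * (deltaZ * deltaZ) + (36 * (deltaZ * P0)) + (11197440000 * (deltaZ * (dd 3))) + (756 * ((dd 3) * P0)) + (30233088000 * ((dd 3) * (dd 3))))) :=
  z_m36.sub z_a45

theorem ident_B : (((e4d 3) * (e4d 3)) * (e4d 3)) * P0 = 41472000 * (deltaZ * deltaZ) + (36 * (deltaZ * P0)) + (11197440000 * (deltaZ * (dd 3))) + (756 * ((dd 3) * P0)) + (30233088000 * ((dd 3) * (dd 3))) := by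
  refine sub_eq_zero.mp (z_s46.eq_zero index_Gamma0_three fun m hm => ?_)
  have hm' : m < 10 := by
    have h : ((24 : ℤ) * (4 : ℕ)).toNat / 12 = 8 := by decide
    omega
  exact t_s46.coeff_eq_zero (by decide) hm'

end Fermat.Agent.GJ.Haupt.L3
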