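/-
GATE-J / J1-HAUPT, file 6: the Hauptmodul `t₃ = (η(q)/η(q³))¹²` of `X₀(3)` as a formal Laurent
series over an arbitrary commutative ring, and its two relations with `j(q)`, `j(q³)`:

  `j(q) · t₃³ = (t₃ + 27)(t₃ + 243)³`,      `j(q³) · t₃ = (t₃ + 27)(t₃ + 3)³`.
-/
import Fermat.Agent.GJ.Haupt.Level3Data
import Fermat.Agent.GJ.Haupt.Formal2

set_option autoImplicit false

noncomputable section

namespace Fermat.Agent.GJ.Haupt

open PowerSeries ModularCurve Fermat.Agent.S28 Fermat.Agent.S16.L1h67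

/-! ### eta products -/

/-- the inverse of `∏ (1 - qⁿ)` in `ℤ⟦q⟧` -/
def etaInv : PowerSeries ℤ := etaProd.invOfUnit 1

theorem etaProd_mul_etaInv : etaProd * etaInv = 1 :=
  PowerSeries.mul_invOfUnit _ _ (by rw [constantCoeff_etaProd]; rfl)

/-- `∏ (1 - q³ⁿ)` -/
def eta3 : PowerSeries ℤ := PowerSeries.expand 3 three_ne_zero etaProd

/-- the inverse of `∏ (1 - q³ⁿ)` -/
def eta3Inv : PowerSeries ℤ := PowerSeries.expand 3 three_ne_zero etaInv

theorem eta3_mul_eta3Inv : eta3 * eta3Inv = 1 := by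
  rw [eta3, eta3Inv, ← map_mul, etaProd_mul_etaInv, map_one]

/-- `q² (η(q) η(q³))¹²` without the powers of `q^{1/24}` -/
def W0 : PowerSeries ℤ := X ^ 2 * (etaProd * eta3) ^ 12

theorem W0_sq : W0 * W0 = deltaZ * dd 3 := by
  rw [dd, deltaZ_eq, map_mul, PowerSeries.expand_X, dedekindEtaUnit, map_pow, W0, eta3]
  ring

theorem coeff_two_W0 : coeff 2 W0 = 1 := by
  rw [W0, show (2 : ℕ) = 0 + 2 from rfl, PowerSeries.coeff_X_pow_mul',
    if_pos (le_refl _)]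
  simp [eta3, constantCoeff_etaProd]

theorem ofNat_ne_zero_ps : (41472000 : PowerSeries ℤ) ≠ 0 := by
  intro h
  have := congrArg (constantCoeff (R := ℤ)) h
  rw [map_ofNat, map_zero] at this
  norm_num at this

/-- `41472000 · q² (η η₃)¹²` is the combination `P0` of Eisenstein monomials. -/
theorem P0_eq : L3.P0 = 41472000 * W0 := by
  have h : (L3.P0 - 41472000 * W0) * (L3.P0 + 41472000 * W0) = 0 := by
    linear_combination L3.ident_P - 41472000 ^ 2 * W0_sq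
  rcases mul_eq_zero.mp h with h | h
  · exact sub_eq_zero.mp h
  · exfalso
    have h2 := congrArg (coeff 2) h
    have h3 : (41472000 : PowerSeries ℤ) = C (41472000 : ℤ) := by simp
    rw [map_add, L3.coeff_two_P0, h3, coeff_C_mul, coeff_two_W0, map_zero] at h2
    norm_num at h2

theorem identA' : e4Z * e4Z * e4Z * W0 = deltaZ * deltaZ + 756 * (deltaZ * W0) +
    196830 * (deltaZ * dd 3) + 19131876 * (dd 3 * W0) + 387420489 * (dd 3 * dd 3) := by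
  have h := L3.ident_A
  rw [P0_eq] at h
  refine mul_left_cancel₀ ofNat_ne_zero_ps ?_
  linear_combination h

theorem identB' : e4d 3 * e4d 3 * e4d 3 * W0 = deltaZ * deltaZ + 36 * (deltaZ * W0) +
    270 * (deltaZ * dd 3) + 756 * (dd 3 * W0) + 729 * (dd 3 * dd 3) := by
  have h := L3.ident_B
  rw [P0_eq] at h
  refine mul_left_cancel₀ ofNat_ne_zero_ps ?_
  linear_combination h

/-! ### algebra -/

theorem rel3 {A : Type*} [CommRing A] (E D v W D3 X Y a1 a2 a3 a4 : A) (hXY : X * Y = 1)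
    (hv : D * v = 1) (hXW : X * W = D) (hP : W * W = D * D3)
    (hA : E * E * E * W = D * D + a1 * (D * W) + a2 * (D * D3) + a3 * (D3 * W) + a4 * (D3 * D3)) :
    (E ^ 3 * v) * X ^ 3 = X ^ 4 + a1 * X ^ 3 + a2 * X ^ 2 + a3 * X + a4 := by
  have hW : W = D * Y := by linear_combination Y * hXW - W * hXY
  have hD3 : D3 = D * Y ^ 2 := by
    linear_combination (-v) * hP + v * (W + D * Y) * hW - (D3 - D * Y ^ 2) * hv
  subst hW hD3
  have hA' : E ^ 3 * (D * Y) = D ^ 2 * (1 + a1 * Y + a2 * Y ^ 2 + a3 * Y ^ 3 + a4 * Y ^ 4) := by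
    linear_combination hA
  linear_combination (v^2*X^4) * hA' + (-(E^3*v*X^3)*(X*Y) + (D*v+1)*(X^4 + a1*X^4*Y +
    a2*X^4*Y^2 + a3*X^4*Y^3 + a4*X^4*Y^4)) * hv + (-(E^3*v*X^3) + a1*X^3 + a2*X^2*(X*Y+1) +
    a3*X*((X*Y)^2+X*Y+1) + a4*((X*Y)^3+(X*Y)^2+X*Y+1)) * hXY

theorem inv3 {A : Type*} [CommRing A] (D v W D3 u3 X Y : A) (hXY : X * Y = 1)
    (hv : D * v = 1) (hXW : X * W = D) (hP : W * W = D * D3) (hu3 : D3 * u3 = 1) :
    u3 = v * X ^ 2 := by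
  have hW : W = D * Y := by linear_combination Y * hXW - W * hXY
  have hD3 : D3 = D * Y ^ 2 := by
    linear_combination (-v) * hP + v * (W + D * Y) * hW - (D3 - D * Y ^ 2) * hv
  subst hW hD3
  linear_combination (v * X^2) * hu3 - (u3 * Y^2*X^2) * hv - (u3 * (X*Y + 1)) * hXY

/-! ### the Hauptmodul of level 3 over `ℤ` -/

/-- `t₃ = (η(q)/η(q³))¹² = q⁻¹ - 12 + 54 q - …` over `ℤ` -/
def tM3Z : LaurentSeries ℤ := HahnSeries.single (-1 : ℤ) 1 * ofPS (etaProd ^ 12 * eta3Inv ^ 12)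

/-- `1/t₃` over `ℤ` -/
def tM3InvZ : LaurentSeries ℤ := HahnSeries.single (1 : ℤ) 1 * ofPS (etaInv ^ 12 * eta3 ^ 12)

theorem tM3Z_mul_inv : tM3Z * tM3InvZ = 1 := by
  rw [tM3Z, tM3InvZ, mul_mul_mul_comm, HahnSeries.single_mul_single, ← map_mul]
  have h : etaProd ^ 12 * eta3Inv ^ 12 * (etaInv ^ 12 * eta3 ^ 12) = 1 := by
    have h1 : etaProd ^ 12 * eta3Inv ^ 12 * (etaInv ^ 12 * eta3 ^ 12) =
        (etaProd * etaInv) ^ 12 * (eta3 * eta3Inv) ^ 12 := by ring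
    rw [h1, etaProd_mul_etaInv, eta3_mul_eta3Inv]
    simp
  rw [h]
  simp

theorem ofPS_X_sq : ofPS (X ^ 2) = HahnSeries.single (2 : ℤ) 1 := by
  rw [map_pow, HahnSeries.ofPowerSeries_X, HahnSeries.single_pow]
  simp

theorem tM3Z_mul_W0 : tM3Z * ofPS W0 = deltaS ℤ := by
  have h : etaProd ^ 12 * eta3Inv ^ 12 * (etaProd * eta3) ^ 12 = etaProd ^ 24 := by
    have h1 : etaProd ^ 12 * eta3Inv ^ 12 * (etaProd * eta3) ^ 12 =
        etaProd ^ 24 * (eta3 * eta3Inv) ^ 12 := by ring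
    rw [h1, eta3_mul_eta3Inv]
    simp
  calc tM3Z * ofPS W0
      = (HahnSeries.single (-1 : ℤ) 1 * HahnSeries.single (2 : ℤ) 1) *
          ofPS (etaProd ^ 12 * eta3Inv ^ 12 * (etaProd * eta3) ^ 12) := by
        rw [tM3Z, W0, map_mul ofPS (X ^ 2), ofPS_X_sq,
          map_mul ofPS (etaProd ^ 12 * eta3Inv ^ 12)]
        ring
    _ = HahnSeries.single (1 : ℤ) 1 * ofPS (etaProd ^ 24) := by
        rw [HahnSeries.single_mul_single, h]
        norm_num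
    _ = deltaS ℤ := by
        rw [deltaS, map_castRingHom_int, dedekindEtaUnit]

theorem W0_sq_laurent : ofPS W0 * ofPS W0 = deltaS ℤ * qExpand ℤ 3 (deltaS ℤ) := by
  rw [← map_mul, W0_sq, map_mul, ofPS_deltaZ, ofPS_dd]

theorem delta3_mul_inv : qExpand ℤ 3 (deltaS ℤ) * qExpand ℤ 3 (deltaInvS ℤ) = 1 := by
  rw [← map_mul, deltaS_mul_deltaInvS, map_one]

theorem tM3Z_rel_j : jqModC ℤ * tM3Z ^ 3 = (tM3Z + 27) * (tM3Z + 243) ^ 3 := by
  have h := congrArg ofPS identA'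
  simp only [map_mul, map_add, map_ofNat, ofPS_e4Z, ofPS_deltaZ, ofPS_dd] at h
  rw [jqModC_eq_e4S_deltaInvS,
    rel3 _ _ _ _ _ _ _ _ _ _ _ tM3Z_mul_inv (deltaS_mul_deltaInvS ℤ) tM3Z_mul_W0 W0_sq_laurent h]
  ring

theorem tM3Z_rel_j3 : qExpand ℤ 3 (jqModC ℤ) * tM3Z = (tM3Z + 27) * (tM3Z + 3) ^ 3 := by
  have h := congrArg ofPS identB'
  simp only [map_mul, map_add, map_ofNat, ofPS_e4d, ofPS_deltaZ, ofPS_dd] at h
  have hu := inv3 _ _ _ _ _ _ _ tM3Z_mul_inv (deltaS_mul_deltaInvS ℤ) tM3Z_mul_W0 W0_sq_laurent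
    delta3_mul_inv
  have h3 := rel3 _ _ _ _ _ _ _ _ _ _ _ tM3Z_mul_inv (deltaS_mul_deltaInvS ℤ) tM3Z_mul_W0
    W0_sq_laurent h
  rw [jqModC_eq_e4S_deltaInvS, map_mul, map_pow, hu]
  linear_combination h3

/-- `t₃² = Δ(q)/Δ(q³)` -/
theorem tM3Z_sq : tM3Z ^ 2 = uInvS ℤ 3 := by
  have hu := inv3 _ _ _ _ _ _ _ tM3Z_mul_inv (deltaS_mul_deltaInvS ℤ) tM3Z_mul_W0 W0_sq_laurent
    delta3_mul_inv
  rw [uInvS, hu]
  linear_combination (-(tM3Z ^ 2)) * deltaS_mul_deltaInvS ℤ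

/-! ### over an arbitrary commutative ring -/

variable (R : Type*) [CommRing R]

/-- `t₃ = (η(q)/η(q³))¹² = q⁻¹ - 12 + 54 q - …`, the Hauptmodul of `X₀(3)`. -/
def tM3 : LaurentSeries R := coeffMap (Int.castRingHom R) tM3Z

/-- `1/t₃` -/
def tM3Inv : LaurentSeries R := coeffMap (Int.castRingHom R) tM3InvZ

theorem coeffMap_tM3 {S : Type*} [CommRing S] (f : R →+* S) : coeffMap f (tM3 R) = tM3 S := by
  rw [tM3, coeffMap_coeffMap, RingHom.ext_int (f.comp (Int.castRingHom R)) (Int.castRingHom S)]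
  rfl

theorem coeffMap_tM3Inv {S : Type*} [CommRing S] (f : R →+* S) :
    coeffMap f (tM3Inv R) = tM3Inv S := by
  rw [tM3Inv, coeffMap_coeffMap,
    RingHom.ext_int (f.comp (Int.castRingHom R)) (Int.castRingHom S)]
  rfl

theorem tM3_mul_inv : tM3 R * tM3Inv R = 1 := by
  rw [tM3, tM3Inv, ← map_mul, tM3Z_mul_inv, map_one]

/-- `j(q) · t₃³ = (t₃ + 27)(t₃ + 243)³` -/
theorem jq_mul_tM3_cube : jqModC R * tM3 R ^ 3 = (tM3 R + 27) * (tM3 R + 243) ^ 3 := by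
  have h := congrArg (coeffMap (Int.castRingHom R)) tM3Z_rel_j
  simp only [map_mul, map_pow, map_add, map_ofNat, coeffMap_jqModC] at h
  exact h

/-- `j(q³) · t₃ = (t₃ + 27)(t₃ + 3)³` -/
theorem jq3_mul_tM3 : qExpand R 3 (jqModC R) * tM3 R = (tM3 R + 27) * (tM3 R + 3) ^ 3 := by
  have h := congrArg (coeffMap (Int.castRingHom R)) tM3Z_rel_j3
  simp only [map_mul, map_pow, map_add, map_ofNat, coeffMap_qExpand, coeffMap_jqModC] at h
  exact h

/-- `t₃² = Δ(q)/Δ(q³)` -/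
theorem tM3_sq : tM3 R ^ 2 = uInvS R 3 := by
  have h := congrArg (coeffMap (Int.castRingHom R)) tM3Z_sq
  simp only [map_pow, coeffMap_uInvS] at h
  exact h

end Fermat.Agent.GJ.Haupt
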