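/-
GATE-J / J1-HAUPT, file 8: the derivation `θ = q d/dq` on formal Laurent series and the uniform
differential identity

  `(θ t)⁶ = R_M(t) · Δ(q)`,   `t = j, t₂, t₃`,
  `R₁ = t⁴ (t - 1728)³`,  `R₂ = t⁴ (t + 64)³`,  `R₃ = t³ (t + 27)⁴`,

over an arbitrary commutative ring.
-/
import Fermat.Agent.GJ.Haupt.Formal3
import Fermat.Agent.S16.RAM.Series

set_option autoImplicit false

noncomputable section

namespace Fermat.Agent.GJ.Haupt

open ModularCurve Fermat.Agent.S28 Fermat.Agent.S16.L1h67 Finset

section Theta

variable {R : Type*} [CommRing R]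

/-- `θ = q d/dq` on Laurent series -/
def thetaL (x : LaurentSeries R) : LaurentSeries R where
  coeff := fun n => (n : R) * x.coeff n
  isPWO_support' := x.isPWO_support.mono fun n hn => by
    simp only [Function.mem_support, ne_eq] at hn ⊢
    exact fun h => hn (by rw [h, mul_zero])

@[simp] theorem thetaL_coeff (x : LaurentSeries R) (n : ℤ) :
    (thetaL x).coeff n = (n : R) * x.coeff n := rfl

theorem support_thetaL_subset (x : LaurentSeries R) : (thetaL x).support ⊆ x.support := by
  intro n hn
  simp only [HahnSeries.mem_support, thetaL_coeff, ne_eq] at hn ⊢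
  exact fun h => hn (by rw [h, mul_zero])

theorem thetaL_add (x y : LaurentSeries R) : thetaL (x + y) = thetaL x + thetaL y := by
  ext n
  simp [mul_add]

theorem thetaL_zero : thetaL (0 : LaurentSeries R) = 0 := by
  ext n
  simp

theorem thetaL_neg (x : LaurentSeries R) : thetaL (-x) = -thetaL x := by
  ext n
  simp

theorem thetaL_sub (x y : LaurentSeries R) : thetaL (x - y) = thetaL x - thetaL y := by
  rw [sub_eq_add_neg, thetaL_add, thetaL_neg, sub_eq_add_neg]

theorem thetaL_single (n : ℤ) (r : R) :
    thetaL (HahnSeries.single n r) = HahnSeries.single n ((n : R) * r) := by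
  ext m
  rw [thetaL_coeff, HahnSeries.coeff_single, HahnSeries.coeff_single]
  split_ifs with h
  · rw [h]
  · rw [mul_zero]

theorem thetaL_one : thetaL (1 : LaurentSeries R) = 0 := by
  rw [← HahnSeries.single_zero_one, thetaL_single]
  simp

theorem thetaL_C (r : R) : thetaL (HahnSeries.C r : LaurentSeries R) = 0 := by
  rw [HahnSeries.C_apply, thetaL_single]
  simp

/-- the Leibniz rule -/
theorem thetaL_mul (x y : LaurentSeries R) :
    thetaL (x * y) = thetaL x * y + x * thetaL y := by
  ext a
  rw [thetaL_coeff, HahnSeries.coeff_add, HahnSeries.coeff_mul,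
    HahnSeries.coeff_mul_left' x.isPWO_support (support_thetaL_subset x),
    HahnSeries.coeff_mul_right' y.isPWO_support (support_thetaL_subset y),
    ← Finset.sum_add_distrib, Finset.mul_sum]
  refine Finset.sum_congr rfl fun ij hij => ?_
  have h : ij.1 + ij.2 = a := (Finset.mem_antidiagonal.mp hij).2.2
  rw [thetaL_coeff, thetaL_coeff, ← h]
  push_cast
  ring

theorem thetaL_ofNat (n : ℕ) [n.AtLeastTwo] :
    thetaL (OfNat.ofNat n : LaurentSeries R) = 0 := by
  have h : (OfNat.ofNat n : LaurentSeries R) = HahnSeries.C (OfNat.ofNat n : R) := by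
    rw [map_ofNat]
  rw [h, thetaL_C]

theorem thetaL_pow (x : LaurentSeries R) (n : ℕ) :
    thetaL (x ^ (n + 1)) = (n + 1 : ℕ) * x ^ n * thetaL x := by
  induction n with
  | zero => simp
  | succ n ih =>
    rw [pow_succ, thetaL_mul, ih]
    push_cast
    ring

theorem thetaL_sq (x : LaurentSeries R) : thetaL (x ^ 2) = 2 * x * thetaL x := by
  have h := thetaL_pow x 1
  simpa using h

theorem thetaL_cube (x : LaurentSeries R) : thetaL (x ^ 3) = 3 * x ^ 2 * thetaL x := by
  have h := thetaL_pow x 2
  simpa using h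

/-- `θ` of an inverse -/
theorem thetaL_of_mul_eq_one {x y : LaurentSeries R} (h : x * y = 1) :
    thetaL y = -(y ^ 2 * thetaL x) := by
  have h1 := congrArg thetaL h
  rw [thetaL_mul, thetaL_one] at h1
  linear_combination y * h1 - thetaL y * h

theorem coeffMap_thetaL {S : Type*} [CommRing S] (f : R →+* S) (x : LaurentSeries R) :
    coeffMap f (thetaL x) = thetaL (coeffMap f x) := by
  ext n
  simp [coeffMap_coeff]

theorem thetaL_ofPowerSeries (p : PowerSeries R) :
    thetaL (HahnSeries.ofPowerSeries ℤ R p) =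
      HahnSeries.ofPowerSeries ℤ R (Fermat.Agent.S16.RAM.theta R p) := by
  ext n
  rw [thetaL_coeff]
  rcases le_or_gt 0 n with hn | hn
  · lift n to ℕ using hn
    rw [HahnSeries.ofPowerSeries_apply_coeff, HahnSeries.ofPowerSeries_apply_coeff,
      Fermat.Agent.S16.RAM.coeff_theta]
    simp
  · rw [ofPowerSeries_coeff_of_neg _ hn, ofPowerSeries_coeff_of_neg _ hn, mul_zero]

end Theta

end Fermat.Agent.GJ.Haupt
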