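/-
GATE-J / J1-HAUPT, file 9 (HM-THETA): the uniform differential identity

  `(θ t)⁶ = R_M(t) · Δ(q)`,   `t = j, t₂, t₃`,
  `R₁ = t⁴ (t - 1728)³`,  `R₂ = t⁴ (t + 64)³`,  `R₃ = t³ (t + 27)⁴`,

over an arbitrary commutative ring, `θ = q d/dq`.
-/
import Fermat.Agent.GJ.Haupt.Theta
import Fermat.Agent.S28.UnitOrders

set_option autoImplicit false

noncomputable section

namespace Fermat.Agent.GJ.Haupt

open ModularCurve Fermat.Agent.S28 Fermat.Agent.S16.L1h67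

/-! ### level one -/

section LevelOne

variable (A : Type*) [CommRing A]

/-- `E₂` as a Laurent series -/
def e2S : LaurentSeries A := HahnSeries.ofPowerSeries ℤ A (Fermat.Agent.S16.RAM.e2 A)

/-- `E₆` as a Laurent series -/
def e6S : LaurentSeries A := HahnSeries.ofPowerSeries ℤ A (Fermat.Agent.S16.RAM.e6 A)

theorem ofPowerSeries_ram_e4 :
    HahnSeries.ofPowerSeries ℤ A (Fermat.Agent.S16.RAM.e4 A) = e4S A := by
  rw [e4S, Fermat.Agent.S16.RAM.e4, e4Z_eq_eisenstein4]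

theorem ofPowerSeries_ram_delta :
    HahnSeries.ofPowerSeries ℤ A (Fermat.Agent.S16.RAM.delta A) = deltaS A := by
  rw [deltaS, Fermat.Agent.S16.RAM.delta, deltaZ_eq, map_mul, PowerSeries.map_X, map_mul,
    HahnSeries.ofPowerSeries_X]

/-- Ramanujan: `3 θE₄ = E₂E₄ - E₆` -/
theorem thetaL_e4S : 3 * thetaL (e4S A) = e2S A * e4S A - e6S A := by
  have h := congrArg (HahnSeries.ofPowerSeries ℤ A) (Fermat.Agent.S16.RAM.theta_e4 A)
  rw [map_mul, map_sub, map_mul, map_ofNat, ← thetaL_ofPowerSeries, ofPowerSeries_ram_e4] at h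
  exact h

/-- Ramanujan: `θΔ = E₂Δ` -/
theorem thetaL_deltaS : thetaL (deltaS A) = e2S A * deltaS A := by
  have h := congrArg (HahnSeries.ofPowerSeries ℤ A) (Fermat.Agent.S16.RAM.theta_delta A)
  rw [map_mul, ← thetaL_ofPowerSeries, ofPowerSeries_ram_delta] at h
  exact h

/-- `E₄³ - E₆² = 1728 Δ` -/
theorem e4S_cube_sub_e6S_sq : e4S A ^ 3 - e6S A ^ 2 = 1728 * deltaS A := by
  have h := congrArg (HahnSeries.ofPowerSeries ℤ A) (Fermat.Agent.S16.RAM.e4_cube_sub_e6_sq A)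
  rw [map_sub, map_pow, map_pow, map_mul, map_ofNat, ofPowerSeries_ram_e4,
    ofPowerSeries_ram_delta] at h
  exact h

/-- `θΔ⁻¹ = -E₂Δ⁻¹` -/
theorem thetaL_deltaInvS : thetaL (deltaInvS A) = -(e2S A * deltaInvS A) := by
  rw [thetaL_of_mul_eq_one (deltaS_mul_deltaInvS A), thetaL_deltaS]
  linear_combination (-(deltaInvS A * e2S A)) * deltaS_mul_deltaInvS A

/-- `θj = -E₄²E₆/Δ` -/
theorem thetaL_jqModC : thetaL (jqModC A) = -(e4S A ^ 2 * e6S A * deltaInvS A) := by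
  rw [jqModC_eq_e4S_deltaInvS, thetaL_mul, thetaL_cube, thetaL_deltaInvS]
  linear_combination (e4S A ^ 2 * deltaInvS A) * thetaL_e4S A

/-- `j - 1728 = E₆²/Δ` -/
theorem jqModC_sub_eq : jqModC A - 1728 = e6S A ^ 2 * deltaInvS A := by
  rw [jqModC_eq_e4S_deltaInvS]
  linear_combination deltaInvS A * e4S_cube_sub_e6S_sq A + 1728 * deltaS_mul_deltaInvS A

/-- **level one**: `(θj)⁶ = j⁴ (j - 1728)³ Δ` -/
theorem theta6_one : thetaL (jqModC A) ^ 6 = jqModC A ^ 4 * (jqModC A - 1728) ^ 3 * deltaS A := by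
  rw [thetaL_jqModC, jqModC_sub_eq, jqModC_eq_e4S_deltaInvS]
  linear_combination (-(e4S A ^ 12 * e6S A ^ 6 * deltaInvS A ^ 6)) * deltaS_mul_deltaInvS A

end LevelOne

/-! ### the chain rule, in a domain -/

theorem chain_two {S : Type*} [CommRing S] [IsDomain S] (J X θJ θX D : S)
    (h1 : J * X ^ 2 = (X + 256) ^ 3)
    (hL : θJ * X ^ 2 + J * (2 * X * θX) = 3 * (X + 256) ^ 2 * θX)
    (h6 : θJ ^ 6 = J ^ 4 * (J - 1728) ^ 3 * D)
    (hc1 : X + 256 ≠ 0) (hc2 : X - 512 ≠ 0) :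
    θX ^ 6 = X ^ 4 * (X + 64) ^ 3 * D := by
  have hθ : θJ * X ^ 3 = θX * ((X + 256) ^ 2 * (X - 512)) := by
    linear_combination X * hL - 2 * θX * h1
  have h2 : (J - 1728) * X ^ 2 = (X - 512) ^ 2 * (X + 64) := by
    linear_combination h1
  have key : θX ^ 6 * ((X + 256) ^ 2 * (X - 512)) ^ 6 =
      X ^ 4 * (X + 64) ^ 3 * D * ((X + 256) ^ 2 * (X - 512)) ^ 6 := by
    calc θX ^ 6 * ((X + 256) ^ 2 * (X - 512)) ^ 6 = (θJ * X ^ 3) ^ 6 := by rw [hθ]; ring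
      _ = θJ ^ 6 * X ^ 18 := by ring
      _ = J ^ 4 * (J - 1728) ^ 3 * D * X ^ 18 := by rw [h6]
      _ = (J * X ^ 2) ^ 4 * ((J - 1728) * X ^ 2) ^ 3 * X ^ 4 * D := by ring
      _ = X ^ 4 * (X + 64) ^ 3 * D * ((X + 256) ^ 2 * (X - 512)) ^ 6 := by rw [h1, h2]; ring
  exact mul_right_cancel₀ (pow_ne_zero 6 (mul_ne_zero (pow_ne_zero 2 hc1) hc2)) key

theorem chain_three {S : Type*} [CommRing S] [IsDomain S] (J X θJ θX D : S)
    (h1 : J * X ^ 3 = (X + 27) * (X + 243) ^ 3)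
    (hL : θJ * X ^ 3 + J * (3 * X ^ 2 * θX) =
      θX * (X + 243) ^ 3 + (X + 27) * (3 * (X + 243) ^ 2 * θX))
    (h6 : θJ ^ 6 = J ^ 4 * (J - 1728) ^ 3 * D)
    (hc1 : X + 243 ≠ 0) (hc2 : X ^ 2 - 486 * X - 19683 ≠ 0) :
    θX ^ 6 = X ^ 3 * (X + 27) ^ 4 * D := by
  have hθ : θJ * X ^ 4 = θX * ((X + 243) ^ 2 * (X ^ 2 - 486 * X - 19683)) := by
    linear_combination X * hL - 3 * θX * h1
  have h2 : (J - 1728) * X ^ 3 = (X ^ 2 - 486 * X - 19683) ^ 2 := by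
    linear_combination h1
  have key : θX ^ 6 * ((X + 243) ^ 2 * (X ^ 2 - 486 * X - 19683)) ^ 6 =
      X ^ 3 * (X + 27) ^ 4 * D * ((X + 243) ^ 2 * (X ^ 2 - 486 * X - 19683)) ^ 6 := by
    calc θX ^ 6 * ((X + 243) ^ 2 * (X ^ 2 - 486 * X - 19683)) ^ 6
        = (θJ * X ^ 4) ^ 6 := by rw [hθ]; ring
      _ = θJ ^ 6 * X ^ 24 := by ring
      _ = J ^ 4 * (J - 1728) ^ 3 * D * X ^ 24 := by rw [h6]
      _ = (J * X ^ 3) ^ 4 * ((J - 1728) * X ^ 3) ^ 3 * X ^ 3 * D := by ring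
      _ = X ^ 3 * (X + 27) ^ 4 * D * ((X + 243) ^ 2 * (X ^ 2 - 486 * X - 19683)) ^ 6 := by
          rw [h1, h2]; ring
  exact mul_right_cancel₀ (pow_ne_zero 6 (mul_ne_zero (pow_ne_zero 2 hc1) hc2)) key

/-! ### leading terms -/

theorem hasLead_tM2 (R : Type*) [CommRing R] : HasLead (tM2 R) (-1) 1 := by
  have h := ((hasLead_deltaInvS R).qExpand 2).mul (hasLead_deltaS R)
  rw [tM2, uInvS]
  refine h.congr ?_ ?_ <;> norm_num

theorem coeff_ofNat_of_ne {R : Type*} [CommRing R] (n : ℕ) [n.AtLeastTwo] {m : ℤ} (hm : m ≠ 0) :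
    (OfNat.ofNat n : LaurentSeries R).coeff m = 0 := by
  have h : (OfNat.ofNat n : LaurentSeries R) = HahnSeries.C (OfNat.ofNat n : R) := by
    rw [map_ofNat]
  rw [h, HahnSeries.C_apply, HahnSeries.coeff_single_of_ne hm]

section Final

open PowerSeries

theorem constantCoeff_etaInv : constantCoeff etaInv = 1 := by
  rw [etaInv, PowerSeries.constantCoeff_invOfUnit]
  simp

theorem constantCoeff_eta3Inv : constantCoeff eta3Inv = 1 := by
  rw [eta3Inv, PowerSeries.constantCoeff_expand, constantCoeff_etaInv]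

theorem hasLead_tM3Z : HasLead tM3Z (-1) 1 := by
  have h := hasLead_single_mul_ofPowerSeries ℤ (-1) (etaProd ^ 12 * eta3Inv ^ 12)
    (by rw [map_mul, map_pow, map_pow, constantCoeff_etaProd, constantCoeff_eta3Inv]; norm_num)
  rwa [map_castRingHom_int] at h

theorem hasLead_tM3 (R : Type*) [CommRing R] : HasLead (tM3 R) (-1) 1 := by
  have h := hasLead_tM3Z.coeffMap (Int.castRingHom R)
  rw [tM3]
  exact h.congr rfl (by simp)

/-- a Laurent series with leading term `q⁻¹` is not a constant -/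
theorem add_ofNat_ne_zero {R : Type*} [CommRing R] [Nontrivial R] {x : LaurentSeries R}
    (hx : HasLead x (-1) 1) (n : ℕ) [n.AtLeastTwo] :
    x + (OfNat.ofNat n : LaurentSeries R) ≠ 0 := by
  intro h
  have h1 := congrArg (fun y : LaurentSeries R => y.coeff (-1)) h
  simp only [HahnSeries.coeff_add, HahnSeries.coeff_zero] at h1
  rw [hx.1, coeff_ofNat_of_ne n (by norm_num)] at h1
  simp at h1

theorem sub_ofNat_ne_zero {R : Type*} [CommRing R] [Nontrivial R] {x : LaurentSeries R}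
    (hx : HasLead x (-1) 1) (n : ℕ) [n.AtLeastTwo] :
    x - (OfNat.ofNat n : LaurentSeries R) ≠ 0 := by
  intro h
  have h1 := congrArg (fun y : LaurentSeries R => y.coeff (-1)) h
  simp only [HahnSeries.coeff_sub, HahnSeries.coeff_zero] at h1
  rw [hx.1, coeff_ofNat_of_ne n (by norm_num)] at h1
  simp at h1

theorem theta6_two_int :
    thetaL (tM2 ℤ) ^ 6 = tM2 ℤ ^ 4 * (tM2 ℤ + 64) ^ 3 * deltaS ℤ := by
  have h1 := jq_mul_tM2_sq ℤ
  have hL := congrArg thetaL h1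
  rw [thetaL_mul, thetaL_sq, thetaL_cube, thetaL_add, thetaL_ofNat, add_zero] at hL
  exact chain_two _ _ _ _ _ h1 hL (theta6_one ℤ) (add_ofNat_ne_zero (hasLead_tM2 ℤ) 256)
    (sub_ofNat_ne_zero (hasLead_tM2 ℤ) 512)

theorem theta6_three_int :
    thetaL (tM3 ℤ) ^ 6 = tM3 ℤ ^ 3 * (tM3 ℤ + 27) ^ 4 * deltaS ℤ := by
  have h1 := jq_mul_tM3_cube ℤ
  have hL := congrArg thetaL h1
  rw [thetaL_mul, thetaL_cube, thetaL_mul, thetaL_cube, thetaL_add, thetaL_add, thetaL_ofNat,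
    thetaL_ofNat, add_zero] at hL
  refine chain_three _ _ _ _ _ h1 hL (theta6_one ℤ) (add_ofNat_ne_zero (hasLead_tM3 ℤ) 243) ?_
  intro h
  have hx := hasLead_tM3 ℤ
  have h2 := ((hx.pow 2).congr (by norm_num : (2 : ℕ) * (-1 : ℤ) = -2) (one_pow 2))
  have h3 := congrArg (fun y : LaurentSeries ℤ => y.coeff (-2)) h
  simp only [HahnSeries.coeff_sub, HahnSeries.coeff_zero] at h3
  rw [h2.1, coeff_ofNat_of_ne 19683 (by norm_num)] at h3
  have h4 : ((486 : LaurentSeries ℤ) * tM3 ℤ).coeff (-2) = 0 := by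
    have : (486 : LaurentSeries ℤ) = HahnSeries.C (486 : ℤ) := by rw [map_ofNat]
    rw [this, HahnSeries.C_mul_eq_smul, HahnSeries.coeff_smul, hx.2 (-2) (by norm_num), smul_zero]
  rw [h4] at h3
  simp at h3

variable (R : Type*) [CommRing R]

/-- **level two**: `(θt₂)⁶ = t₂⁴ (t₂ + 64)³ Δ` -/
theorem theta6_two : thetaL (tM2 R) ^ 6 = tM2 R ^ 4 * (tM2 R + 64) ^ 3 * deltaS R := by
  have h := congrArg (coeffMap (Int.castRingHom R)) theta6_two_int
  simpa only [map_mul, map_pow, map_add, map_ofNat, coeffMap_thetaL, coeffMap_tM2,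
    coeffMap_deltaS] using h

/-- **level three**: `(θt₃)⁶ = t₃³ (t₃ + 27)⁴ Δ` -/
theorem theta6_three : thetaL (tM3 R) ^ 6 = tM3 R ^ 3 * (tM3 R + 27) ^ 4 * deltaS R := by
  have h := congrArg (coeffMap (Int.castRingHom R)) theta6_three_int
  simpa only [map_mul, map_pow, map_add, map_ofNat, coeffMap_thetaL, coeffMap_tM3,
    coeffMap_deltaS] using h


end Final

end Fermat.Agent.GJ.Haupt
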