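/-
GATE-J / J1-HAUPT, file 7: the Hauptmoduln lie in the modular function fields.

Explicit elimination: `den(j, j_M) · t_M = num(j, j_M)` with polynomials `den`, `num` with integer
coefficients whose leading `q`-coefficient is `2¹²` (`M = 2`) resp. `3⁶` (`M = 3`); hence
`t_M ∈ k(j(q), j(q^M))` over every field `k` in which `2` resp. `3` is invertible - in particular
over `ℚ`, `ℚ̄`, and over the residue fields of characteristic `3` (`M = 2`) resp. `2` (`M = 3`).
(The polynomial identities were found by a script; Lean checks them with `linear_combination`.)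
-/
import Fermat.Agent.GJ.Haupt.Formal3

set_option autoImplicit false

noncomputable section

namespace Fermat.Agent.GJ.Haupt

open PowerSeries ModularCurve Fermat.Agent.S28

/-! ### the eliminations -/

theorem elim2 {A : Type*} [CommRing A] (J K X Xi : A) (hXi : X * Xi = 1)
    (h1 : J * X ^ 2 = (X + 256) ^ 3) (h2 : K * X = (X + 16) ^ 3) :
    (J ^ 2 + 195120 * J + 4095 * K + 660960000) * X = 4096 * J * K - 2949120 * J - 2949120 * K - 66562560000 := by
  have h : X * ((J ^ 2 + 195120 * J + 4095 * K + 660960000) * X - (4096 * J * K - 2949120 * J - 2949120 * K - 66562560000)) = 0 := by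
    linear_combination (J - 720 - 4095 * X) * h1 + (-4096 * (J - 720) + 4095 * X) * h2
  linear_combination Xi * h - ((J ^ 2 + 195120 * J + 4095 * K + 660960000) * X - (4096 * J * K - 2949120 * J - 2949120 * K - 66562560000)) * hXi

theorem elim3 {A : Type*} [CommRing A] (J K X Xi : A) (hXi : X * Xi = 1)
    (h1 : J * X ^ 3 = (X + 27) * (X + 243) ^ 3) (h2 : K * X = (X + 27) * (X + 3) ^ 3) :
    (729 * J * K ^ 2 - 524880 * K ^ 2 + 196830 * J ^ 2 * K + 18821147040 * J * K + J ^ 3 + 14229831680000 * K - 103456080 * J ^ 2 + 276373831680000 * J - 3623878656000000000) * X =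
      729 * J ^ 2 * K ^ 2 - 1076004 * J * K ^ 2 + 253517040 * K ^ 2 - 1076004 * J ^ 2 * K - 1065366781920 * J * K - 1973615984640000 * K + 253517040 * J ^ 2 - 1973615984640000 * J + 97844723712000000000 := by
  have h : X ^ 2 * ((729 * J * K ^ 2 - 524880 * K ^ 2 + 196830 * J ^ 2 * K + 18821147040 * J * K + J ^ 3 + 14229831680000 * K - 103456080 * J ^ 2 + 276373831680000 * J - 3623878656000000000) * X -
      (729 * J ^ 2 * K ^ 2 - 1076004 * J * K ^ 2 + 253517040 * K ^ 2 - 1076004 * J ^ 2 * K - 1065366781920 * J * K - 1973615984640000 * K + 253517040 * J ^ 2 - 1973615984640000 * J + 97844723712000000000)) = 0 := by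
    linear_combination (-729 * J * K * X ^ 2 + 524880 * J * X ^ 2 + 524880 * K * X ^ 2 + 282050560000 * X ^ 2 - 26244 * J * K * X + 18364240 * J * X - 124396560 * K * X + 89948160000 * X + J ^ 2 + 19130400 * J + 90685440000) * h1 +
      (729 * J * K * X ^ 2 - 524880 * J * X ^ 2 - 524880 * K * X ^ 2 - 282050560000 * X ^ 2 - 729 * J ^ 2 * K * X + 524880 * J ^ 2 * X + 1076004 * J * K * X + 281654282160 * J * X - 253517040 * K * X - 203166351360000 * X - 531441 * J ^ 2 - 10166678906400 * J - 48193960919040000) * h2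
  linear_combination Xi ^ 2 * h - ((729 * J * K ^ 2 - 524880 * K ^ 2 + 196830 * J ^ 2 * K + 18821147040 * J * K + J ^ 3 + 14229831680000 * K - 103456080 * J ^ 2 + 276373831680000 * J - 3623878656000000000) * X -
      (729 * J ^ 2 * K ^ 2 - 1076004 * J * K ^ 2 + 253517040 * K ^ 2 - 1076004 * J ^ 2 * K - 1065366781920 * J * K - 1973615984640000 * K + 253517040 * J ^ 2 - 1973615984640000 * J + 97844723712000000000)) * (X * Xi + 1) * hXi

/-! ### nonvanishing of the denominators -/

section Field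

variable (k : Type*) [Field k]

/-- `q` as a Laurent series -/
abbrev qL : LaurentSeries k := HahnSeries.single (1 : ℤ) (1 : k)

theorem jqModC_mul_qL :
    jqModC k * qL k = HahnSeries.ofPowerSeries ℤ k (jNum.map (Int.castRingHom k)) := by
  rw [jqModC, mul_right_comm, HahnSeries.single_mul_single]
  simp

theorem qExpand_jqModC_mul_qL_pow (M : ℕ) [NeZero M] :
    qExpand k M (jqModC k) * qL k ^ M = HahnSeries.ofPowerSeries ℤ k
      (PowerSeries.expand M (NeZero.ne M) (jNum.map (Int.castRingHom k))) := by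
  rw [jqModC, map_mul, qExpand_single, qExpand_ofPowerSeries, mul_right_comm,
    HahnSeries.single_pow, HahnSeries.single_mul_single]
  simp

theorem ofPowerSeries_X_eq_qL : HahnSeries.ofPowerSeries ℤ k (X : PowerSeries k) = qL k :=
  HahnSeries.ofPowerSeries_X

theorem constantCoeff_jNum_map :
    constantCoeff (jNum.map (Int.castRingHom k)) = 1 := by
  rw [← coeff_zero_eq_constantCoeff_apply, coeff_map, coeff_zero_eq_constantCoeff_apply,
    constantCoeff_jNum]
  simp

theorem den2_ne_zero (h2 : (2 : k) ≠ 0) :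
    jqModC k ^ 2 + 195120 * jqModC k + 4095 * qExpand k 2 (jqModC k) + 660960000 ≠ 0 := by
  intro h
  set J := jqModC k
  set K := qExpand k 2 (jqModC k)
  set t := qL k
  set p : PowerSeries k := jNum.map (Int.castRingHom k)
  set p2 : PowerSeries k := PowerSeries.expand 2 (NeZero.ne 2) p
  have hJ : J * t = HahnSeries.ofPowerSeries ℤ k p := jqModC_mul_qL k
  have hK : K * t ^ 2 = HahnSeries.ofPowerSeries ℤ k p2 := qExpand_jqModC_mul_qL_pow k 2
  have h1 : (J * t) ^ 2 + 195120 * (J * t) * t + 4095 * (K * t ^ 2) + 660960000 * t ^ 2 = 0 := by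
    linear_combination t ^ 2 * h
  have ht : t = HahnSeries.ofPowerSeries ℤ k X := (ofPowerSeries_X_eq_qL k).symm
  rw [hJ, hK, ht] at h1
  have h2' : HahnSeries.ofPowerSeries ℤ k
      (p ^ 2 + 195120 * p * X + 4095 * p2 + 660960000 * X ^ 2) = 0 := by
    rw [← h1]
    simp only [map_add, map_mul, map_pow, map_ofNat]
  have h3 := (map_eq_zero_iff _ HahnSeries.ofPowerSeries_injective).mp h2'
  have h4 := congrArg (constantCoeff (R := k)) h3
  simp only [map_add, map_mul, map_pow, map_ofNat, constantCoeff_X, map_zero, p2,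
    PowerSeries.constantCoeff_expand, p, constantCoeff_jNum_map] at h4
  have h5 : (2 : k) ^ 12 = 0 := by
    linear_combination h4
  exact h2 (pow_eq_zero_iff (by norm_num) |>.mp h5)

theorem den3_ne_zero (h3 : (3 : k) ≠ 0) :
    (fun J K : LaurentSeries k => 729 * J * K ^ 2 - 524880 * K ^ 2 + 196830 * J ^ 2 * K + 18821147040 * J * K + J ^ 3 + 14229831680000 * K - 103456080 * J ^ 2 + 276373831680000 * J - 3623878656000000000)
      (jqModC k) (qExpand k 3 (jqModC k)) ≠ 0 := by
  intro h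
  simp only at h
  set J := jqModC k
  set K := qExpand k 3 (jqModC k)
  set t := qL k
  set p : PowerSeries k := jNum.map (Int.castRingHom k)
  set p3 : PowerSeries k := PowerSeries.expand 3 (NeZero.ne 3) p
  have hJ : J * t = HahnSeries.ofPowerSeries ℤ k p := jqModC_mul_qL k
  have hK : K * t ^ 3 = HahnSeries.ofPowerSeries ℤ k p3 := qExpand_jqModC_mul_qL_pow k 3
  have h1 : 729 * (J * t) * (K * t ^ 3) ^ 2 - 524880 * (K * t ^ 3) ^ 2 * t + 196830 * (J * t) ^ 2 * (K * t ^ 3) * t ^ 2 + 18821147040 * (J * t) * (K * t ^ 3) * t ^ 3 + (J * t) ^ 3 * t ^ 4 + 14229831680000 * (K * t ^ 3) * t ^ 4 - 103456080 * (J * t) ^ 2 * t ^ 5 + 276373831680000 * (J * t) * t ^ 6 - 3623878656000000000 * t ^ 7 = 0 := by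
    linear_combination t ^ 7 * h
  have ht : t = HahnSeries.ofPowerSeries ℤ k X := (ofPowerSeries_X_eq_qL k).symm
  rw [hJ, hK, ht] at h1
  have h2' : HahnSeries.ofPowerSeries ℤ k
      (729 * p * p3 ^ 2 - 524880 * p3 ^ 2 * X + 196830 * p ^ 2 * p3 * X ^ 2 + 18821147040 * p * p3 * X ^ 3 + p ^ 3 * X ^ 4 + 14229831680000 * p3 * X ^ 4 - 103456080 * p ^ 2 * X ^ 5 + 276373831680000 * p * X ^ 6 - 3623878656000000000 * X ^ 7) = 0 := by
    rw [← h1]
    simp only [map_add, map_sub, map_mul, map_pow, map_ofNat]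
  have h3' := (map_eq_zero_iff _ HahnSeries.ofPowerSeries_injective).mp h2'
  have h4 := congrArg (constantCoeff (R := k)) h3'
  simp only [map_add, map_sub, map_mul, map_pow, map_ofNat, constantCoeff_X, map_zero, p3,
    PowerSeries.constantCoeff_expand, p, constantCoeff_jNum_map] at h4
  have h5 : (3 : k) ^ 6 = 0 := by
    linear_combination h4
  exact h3 (pow_eq_zero_iff (by norm_num) |>.mp h5)

/-! ### membership -/

theorem tM2_mem_two (h2 : (2 : k) ≠ 0) : tM2 k ∈ modularFunctionFieldFullC k 2 := by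
  set F := modularFunctionFieldFullC k 2
  have hJ : jqModC k ∈ F := jqModC_mem_full k 2
  have hK : qExpand k 2 (jqModC k) ∈ F := jqModCd_mem_full k 2 dvd_rfl
  have he := elim2 (jqModC k) (qExpand k 2 (jqModC k)) (tM2 k) (uS k 2)
    (by rw [tM2, mul_comm]; exact uS_mul_uInvS k 2) (jq_mul_tM2_sq k) (jq2_mul_tM2 k)
  have hd := den2_ne_zero k h2
  set J := jqModC k
  set K := qExpand k 2 (jqModC k)
  have hx : tM2 k = (4096 * J * K - 2949120 * J - 2949120 * K - 66562560000) / (J ^ 2 + 195120 * J + 4095 * K + 660960000) :=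
    eq_div_of_mul_eq hd (by rw [mul_comm]; exact he)
  rw [hx]
  exact div_mem (sub_mem (sub_mem (sub_mem (mul_mem (mul_mem (ofNat_mem F 4096) hJ) hK) (mul_mem (ofNat_mem F 2949120) hJ)) (mul_mem (ofNat_mem F 2949120) hK)) (ofNat_mem F 66562560000))
    (add_mem (add_mem (add_mem (pow_mem hJ 2) (mul_mem (ofNat_mem F 195120) hJ)) (mul_mem (ofNat_mem F 4095) hK)) (ofNat_mem F 660960000))

theorem tM3_mem_three (h3 : (3 : k) ≠ 0) : tM3 k ∈ modularFunctionFieldFullC k 3 := by
  set F := modularFunctionFieldFullC k 3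
  have hJ : jqModC k ∈ F := jqModC_mem_full k 3
  have hK : qExpand k 3 (jqModC k) ∈ F := jqModCd_mem_full k 3 dvd_rfl
  have he := elim3 (jqModC k) (qExpand k 3 (jqModC k)) (tM3 k) (tM3Inv k)
    (tM3_mul_inv k) (jq_mul_tM3_cube k) (jq3_mul_tM3 k)
  have hd := den3_ne_zero k h3
  simp only at hd
  set J := jqModC k
  set K := qExpand k 3 (jqModC k)
  have hx : tM3 k = (729 * J ^ 2 * K ^ 2 - 1076004 * J * K ^ 2 + 253517040 * K ^ 2 - 1076004 * J ^ 2 * K - 1065366781920 * J * K - 1973615984640000 * K + 253517040 * J ^ 2 - 1973615984640000 * J + 97844723712000000000) /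
      (729 * J * K ^ 2 - 524880 * K ^ 2 + 196830 * J ^ 2 * K + 18821147040 * J * K + J ^ 3 + 14229831680000 * K - 103456080 * J ^ 2 + 276373831680000 * J - 3623878656000000000) :=
    eq_div_of_mul_eq hd (by rw [mul_comm]; exact he)
  rw [hx]
  exact div_mem (add_mem (sub_mem (add_mem (sub_mem (sub_mem (sub_mem (add_mem (sub_mem (mul_mem (mul_mem (ofNat_mem F 729) (pow_mem hJ 2)) (pow_mem hK 2)) (mul_mem (mul_mem (ofNat_mem F 1076004) hJ) (pow_mem hK 2))) (mul_mem (ofNat_mem F 253517040) (pow_mem hK 2))) (mul_mem (mul_mem (ofNat_mem F 1076004) (pow_mem hJ 2)) hK)) (mul_mem (mul_mem (ofNat_mem F 1065366781920) hJ) hK)) (mul_mem (ofNat_mem F 1973615984640000) hK)) (mul_mem (ofNat_mem F 253517040) (pow_mem hJ 2))) (mul_mem (ofNat_mem F 1973615984640000) hJ)) (ofNat_mem F 97844723712000000000))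
    (sub_mem (add_mem (sub_mem (add_mem (add_mem (add_mem (add_mem (sub_mem (mul_mem (mul_mem (ofNat_mem F 729) hJ) (pow_mem hK 2)) (mul_mem (ofNat_mem F 524880) (pow_mem hK 2))) (mul_mem (mul_mem (ofNat_mem F 196830) (pow_mem hJ 2)) hK)) (mul_mem (mul_mem (ofNat_mem F 18821147040) hJ) hK)) (pow_mem hJ 3)) (mul_mem (ofNat_mem F 14229831680000) hK)) (mul_mem (ofNat_mem F 103456080) (pow_mem hJ 2))) (mul_mem (ofNat_mem F 276373831680000) hJ)) (ofNat_mem F 3623878656000000000))

/-- `t₂ ∈ k(X₀(N))` whenever `2 ∣ N` and `2` is invertible in `k`. -/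
theorem tM2_mem (h2 : (2 : k) ≠ 0) {N : ℕ} [NeZero N] (hN : 2 ∣ N) :
    tM2 k ∈ modularFunctionFieldFullC k N :=
  full_degeneracyC_le (K := k) hN (tM2_mem_two k h2)

/-- `t₃ ∈ k(X₀(N))` whenever `3 ∣ N` and `3` is invertible in `k`. -/
theorem tM3_mem (h3 : (3 : k) ≠ 0) {N : ℕ} [NeZero N] (hN : 3 ∣ N) :
    tM3 k ∈ modularFunctionFieldFullC k N :=
  full_degeneracyC_le (K := k) hN (tM3_mem_three k h3)

end Field

end Fermat.Agent.GJ.Haupt
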